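/-
S55 / 11a2-TATE-CRIT, second seat (helper25): modules over a `p`-group killed by `p` with
vanishing `H₁` are relatively projective (= free over `𝔽_p[P]`).

* `nakayama_pGroup`: Nakayama's lemma for a `p`-group acting on a `p`-torsion module
  (a stable submodule `N` with `N + I_P C = C` is everything), via a nonzero fixed functional.
* `isRelProj_of_section`: for a generic coefficient ring, given a linear section of the projection
  to the coinvariants.
* `isRelProj_of_H1_eq_zero`: the `ℤ`-form asked for by helper45.
-/
import Fermat.Agent.S55.TateCrit45.Shift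

set_option autoImplicit false
set_option linter.style.haveILetI false
set_option linter.unusedSectionVars false

open CategoryTheory

namespace Fermat.Agent.S55.TateCrit45

section Nakayama

variable {k : Type*} [CommRing k] {P : Type*} [Group P] [Finite P]
  {C : Type*} [AddCommGroup C] [Module k C]

/-- **Nakayama for `p`-groups**: if a `p`-group `P` acts on a `p`-torsion module `C` and `N` is a
stable submodule with `N + I_P C = C` then `N = C`. -/
theorem nakayama_pGroup (p : ℕ) [Fact p.Prime] (hP : IsPGroup p P) (ρ : Representation k P C)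
    (hp : ∀ x : C, p • x = 0) (N : Submodule k C) (hN : ∀ g : P, ∀ x ∈ N, ρ g x ∈ N)
    (hsup : N ⊔ Representation.Coinvariants.ker ρ = ⊤) : N = ⊤ := by
  classical
  by_contra hne
  haveI : Module (ZMod p) C := AddCommGroup.zmodModule hp
  -- `N` as a `ZMod p`-submodule
  let N' : Submodule (ZMod p) C :=
    { carrier := N
      add_mem' := fun ha hb => N.add_mem ha hb
      zero_mem' := N.zero_mem
      smul_mem' := fun c x hx => by
        have : c • x = c.val • x := by
          conv_lhs => rw [← ZMod.natCast_zmod_val c]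
          exact Nat.cast_smul_eq_nsmul _ _ _
        rw [this]
        exact N.nsmul_mem hx _ }
  have hN'ne : N' ≠ ⊤ := by
    intro h
    apply hne
    rw [eq_top_iff]
    intro x _
    have : x ∈ N' := by rw [h]; trivial
    exact this
  obtain ⟨f, hf0, hfN⟩ := Submodule.exists_le_ker_of_lt_top N' (lt_top_iff_ne_top.2 hN'ne)
  -- the action on functionals
  let r : P → (C →ₗ[ZMod p] C) := fun g =>
    AddMonoidHom.toZModLinearMap p (ρ g⁻¹ : C →ₗ[k] C).toAddMonoidHom
  have r_apply : ∀ g x, r g x = ρ g⁻¹ x := fun g x => rfl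
  let T : P → ((C →ₗ[ZMod p] ZMod p) →ₗ[ZMod p] (C →ₗ[ZMod p] ZMod p)) := fun g =>
    LinearMap.lcomp (ZMod p) (ZMod p) (r g)
  have T_apply : ∀ g w x, T g w x = w (ρ g⁻¹ x) := fun g w x => rfl
  have T_mul : ∀ g h w, T g (T h w) = T (g * h) w := by
    intro g h w
    apply LinearMap.ext; intro x
    rw [T_apply, T_apply, T_apply, mul_inv_rev, map_mul, Module.End.mul_apply]
  have T_one : ∀ w, T 1 w = w := by
    intro w
    apply LinearMap.ext; intro x
    rw [T_apply, inv_one, map_one, Module.End.one_apply]
  let W : Submodule (ZMod p) (C →ₗ[ZMod p] ZMod p) :=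
    Submodule.span (ZMod p) (Set.range fun g : P => T g f)
  have hWstab : ∀ g : P, ∀ w ∈ W, T g w ∈ W := by
    intro g w hw
    have : W.map (T g) ≤ W := by
      rw [Submodule.map_span, Submodule.span_le]
      rintro _ ⟨_, ⟨h, rfl⟩, rfl⟩
      apply Submodule.subset_span
      exact ⟨g * h, (T_mul g h f).symm⟩
    exact this ⟨w, hw, rfl⟩
  have hWN : ∀ w ∈ W, ∀ x ∈ N, w x = 0 := by
    intro w hw
    induction hw using Submodule.span_induction with
    | mem w hw =>
      obtain ⟨g, rfl⟩ := hw
      intro x hx
      rw [T_apply]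
      exact hfN (hN g⁻¹ x hx)
    | zero => intro x _; rfl
    | add a b _ _ ha hb =>
      intro x hx
      rw [LinearMap.add_apply, ha x hx, hb x hx, add_zero]
    | smul c a _ ha =>
      intro x hx
      rw [LinearMap.smul_apply, ha x hx, smul_zero]
  haveI : Finite W := by
    haveI : Module.Finite (ZMod p) W :=
      Module.Finite.iff_fg.2 (Submodule.fg_span (Set.finite_range _))
    exact Module.finite_of_finite (ZMod p)
  letI : MulAction P W :=
    { smul := fun g w => ⟨T g w.1, hWstab g w.1 w.2⟩
      one_smul := fun w => Subtype.ext (T_one w.1)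
      mul_smul := fun g h w => Subtype.ext (T_mul g h w.1).symm }
  have smul_def : ∀ (g : P) (w : W), ((g • w : W) : C →ₗ[ZMod p] ZMod p) = T g w.1 :=
    fun g w => rfl
  have hfW : f ∈ W := Submodule.subset_span ⟨1, T_one f⟩
  have hcard : p ∣ Nat.card W := by
    have hord : addOrderOf (⟨f, hfW⟩ : W) = p := by
      apply addOrderOf_eq_prime
      · apply Subtype.ext
        apply LinearMap.ext; intro x
        change (p • f) x = 0
        rw [LinearMap.smul_apply]
        have : ((p : ℕ) : ZMod p) = 0 := ZMod.natCast_self p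
        rw [← Nat.cast_smul_eq_nsmul (ZMod p), this, zero_smul]
      · intro h0
        exact hf0 (congrArg Subtype.val h0)
    have := addOrderOf_dvd_natCard (⟨f, hfW⟩ : W)
    rwa [hord] at this
  have h0fix : (0 : W) ∈ MulAction.fixedPoints P W := by
    intro g
    apply Subtype.ext
    rw [smul_def]
    exact map_zero _
  obtain ⟨b, hbfix, hb0⟩ :=
    hP.exists_fixed_point_of_prime_dvd_card_of_fixed_point W hcard h0fix
  -- the fixed functional kills everything
  have hbT : ∀ g : P, T g b.1 = b.1 := fun g => by
    have := hbfix g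
    rw [← smul_def, this]
  let Z : Submodule k C :=
    { carrier := {y | ∀ c : k, b.1 (c • y) = 0}
      add_mem' := fun {y z} hy hz c => by
        rw [smul_add, map_add, hy c, hz c, add_zero]
      zero_mem' := fun c => by rw [smul_zero, map_zero]
      smul_mem' := fun d y hy c => by
        rw [smul_smul]; exact hy _ }
  have hZ1 : N ≤ Z := fun x hx c => hWN b.1 b.2 _ (N.smul_mem c hx)
  have hZ2 : Representation.Coinvariants.ker ρ ≤ Z := by
    refine Submodule.span_le.2 ?_
    rintro _ ⟨⟨g, x⟩, rfl⟩ c
    change b.1 (c • (ρ g x - x)) = 0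
    rw [smul_sub, ← map_smul, map_sub, sub_eq_zero]
    have := congrArg (fun w => w (c • x)) (hbT g⁻¹)
    simp only [T_apply, inv_inv] at this
    exact this
  have hZtop : Z = ⊤ := by
    rw [eq_top_iff, ← hsup]
    exact sup_le hZ1 hZ2
  apply hb0
  apply Subtype.ext
  apply LinearMap.ext; intro x
  have : x ∈ Z := by rw [hZtop]; trivial
  have := this 1
  rw [one_smul] at this
  exact this.symm ▸ rfl

end Nakayama

section H0

variable {k : Type} [CommRing k] {P : Type} [Group P]

/-- `H0π A x = 0` iff `x` lies in the augmentation submodule `I_P A`. -/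
lemma H0π_eq_zero_iff (A : Rep.{0} k P) (x : A.V) :
    (groupHomology.H0π A).hom x = 0 ↔ x ∈ Representation.Coinvariants.ker A.ρ := by
  rw [← Representation.Coinvariants.mk_eq_zero]
  have h := groupHomology.H0π_comp_H0Iso_hom_apply A x
  constructor
  · intro h0
    rw [h0, map_zero] at h
    exact h.symm
  · intro h0
    have h1 : (groupHomology.H0Iso A).hom.hom ((groupHomology.H0π A).hom x) = 0 := by
      rw [h]; exact h0
    have hinj : Function.Injective (groupHomology.H0Iso A).hom.hom :=
      (ModuleCat.mono_iff_injective _).1 inferInstance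
    exact hinj (h1.trans (map_zero _).symm)

/-- If `H₁(X₃) = 0` then `H₀(X₁) → H₀(X₂)` is a monomorphism. -/
lemma mono_map_zero_of_isZero {X : ShortComplex (Rep.{0} k P)} (hX : X.ShortExact)
    (h : Limits.IsZero (groupHomology X.X₃ 1)) :
    Mono (groupHomology.map (MonoidHom.id P) X.f 0) := by
  have hex := groupHomology.mapShortComplex₁_exact hX (i := 1) (j := 0) rfl
  have hm := hex.mono_g (h.eq_of_src _ _)
  have : (groupHomology.mapShortComplex₁ hX (i := 1) (j := 0) rfl).g =
      HomologicalComplex.homologyMap ((groupHomology.chainsFunctor k P).map X.f) 0 := rfl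
  rw [this] at hm
  exact hm

/-- If `H₁(X₃) = 0`, an element of `X₁` whose image lies in `I_P X₂` already lies in
`I_P X₁`. -/
lemma mem_coinvariantsKer_of_isZero {X : ShortComplex (Rep.{0} k P)} (hX : X.ShortExact)
    (h : Limits.IsZero (groupHomology X.X₃ 1)) (x : X.X₁.V)
    (hx : X.f.hom x ∈ Representation.Coinvariants.ker X.X₂.ρ) :
    x ∈ Representation.Coinvariants.ker X.X₁.ρ := by
  haveI hmono := mono_map_zero_of_isZero hX h
  have hinj : Function.Injective (groupHomology.map (MonoidHom.id P) X.f 0).hom :=
    (ModuleCat.mono_iff_injective _).1 hmono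
  rw [← H0π_eq_zero_iff]
  apply hinj
  rw [map_zero]
  have e := congrArg (fun φ => φ.hom x) (groupHomology.H0π_comp_map (MonoidHom.id P) X.f)
  simp only [ModuleCat.hom_comp, LinearMap.comp_apply] at e
  rw [e]
  exact (H0π_eq_zero_iff X.X₂ _).2 hx

end H0

section Cover

variable {k : Type} [CommRing k] {P : Type} [Group P] [Fintype P] (M : Rep.{0} k P)

/-- the coinvariants of `M` -/
abbrev Cv : Type := Representation.Coinvariants M.ρ

/-- the representation on `P → M_P` (coinduced from the trivial action on `M_P`). -/
abbrev covRep : Representation k P (P → Cv M) := midRep (Representation.trivial k P (Cv M))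

variable (s : Cv M →ₗ[k] M.V)

/-- the covering map `(P → M_P) → M`, `f ↦ ∑ h, h • s (f h)`. -/
noncomputable def coverMap : (P → Cv M) →ₗ[k] M.V :=
  ∑ h : P, (M.ρ h) ∘ₗ s ∘ₗ LinearMap.proj h

lemma coverMap_apply (f : P → Cv M) : coverMap M s f = ∑ h : P, M.ρ h (s (f h)) := by
  simp [coverMap]

lemma coverMap_comm (g : P) (f : P → Cv M) :
    coverMap M s (covRep M g f) = M.ρ g (coverMap M s f) := by
  rw [coverMap_apply, coverMap_apply, map_sum]
  refine Fintype.sum_equiv (Equiv.mulLeft g⁻¹) _ _ (fun h => ?_)
  simp only [midRep_apply, Representation.trivial_apply, Equiv.coe_mulLeft]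
  rw [← Module.End.mul_apply, ← map_mul, mul_inv_cancel_left]

lemma coverMap_single [DecidableEq P] (v : Cv M) : coverMap M s (Pi.single 1 v) = s v := by
  rw [coverMap_apply, Finset.sum_eq_single 1]
  · simp
  · intro h _ hh
    rw [Pi.single_eq_of_ne hh, map_zero, map_zero]
  · intro h; exact absurd (Finset.mem_univ _) h

variable (hs : ∀ v, Representation.Coinvariants.mk M.ρ (s v) = v)
include hs

lemma mk_coverMap (f : P → Cv M) :
    Representation.Coinvariants.mk M.ρ (coverMap M s f) = ∑ h : P, f h := by
  rw [coverMap_apply, map_sum]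
  refine Finset.sum_congr rfl (fun h _ => ?_)
  rw [Representation.Coinvariants.mk_self_apply, hs]

omit hs in
/-- a function with total sum zero lies in the augmentation submodule of `P → M_P`. -/
lemma mem_ker_of_sum_eq_zero (f : P → Cv M) (hf : ∑ h : P, f h = 0) :
    f ∈ Representation.Coinvariants.ker (covRep M) := by
  classical
  have h1 : f = ∑ h : P, (covRep M h (Pi.single 1 (f h)) - Pi.single 1 (f h)) +
      Pi.single 1 (∑ h : P, f h) := by
    ext x
    simp only [Pi.add_apply, Finset.sum_apply, Pi.sub_apply, midRep_apply,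
      Representation.trivial_apply, Finset.sum_sub_distrib]
    have e1 : ∑ h : P, (Pi.single (1 : P) (f h) : P → Cv M) (h⁻¹ * x) = f x := by
      rw [Finset.sum_eq_single x]
      · simp
      · intro h _ hh
        rw [Pi.single_eq_of_ne]
        intro h1
        apply hh
        rw [inv_mul_eq_one] at h1
        exact h1
      · intro h; exact absurd (Finset.mem_univ _) h
    have e2 : ∑ h : P, (Pi.single (1 : P) (f h) : P → Cv M) x =
        (Pi.single (1 : P) (∑ h : P, f h) : P → Cv M) x := by
      by_cases hx : x = 1
      · subst hx; simp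
      · simp [Pi.single_eq_of_ne hx]
    rw [e1, e2]
    abel
  rw [h1, hf, Pi.single_zero, add_zero]
  exact Submodule.sum_mem _ (fun h _ => Representation.Coinvariants.sub_mem_ker _ _)

variable (p : ℕ) [Fact p.Prime] (hP : IsPGroup p P) (hp : ∀ x : M.V, p • x = 0)
include hP hp

/-- the covering map is surjective (Nakayama). -/
lemma coverMap_surjective : Function.Surjective (coverMap M s) := by
  classical
  have key : LinearMap.range (coverMap M s) = ⊤ := by
    apply nakayama_pGroup p hP M.ρ hp
    · rintro g _ ⟨f, rfl⟩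
      exact ⟨covRep M g f, coverMap_comm M s g f⟩
    · rw [eq_top_iff]
      intro m _
      have h1 : m = s (Representation.Coinvariants.mk M.ρ m) +
          (m - s (Representation.Coinvariants.mk M.ρ m)) := by abel
      rw [h1]
      apply Submodule.add_mem_sup
      · exact ⟨Pi.single 1 (Representation.Coinvariants.mk M.ρ m), coverMap_single M s _⟩
      · rw [← Representation.Coinvariants.mk_eq_zero, map_sub, hs, sub_self]
  exact LinearMap.range_eq_top.1 key

omit hs hP in
lemma nsmul_cv_eq_zero (v : Cv M) : p • v = 0 := by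
  obtain ⟨m, rfl⟩ := Representation.Coinvariants.mk_surjective M.ρ v
  rw [← map_nsmul, hp, map_zero]

/-- the middle term as an object of `Rep`. -/
noncomputable abbrev covObj : Rep.{0} k P := Rep.of (covRep M)

/-- the covering map as a morphism of `Rep`. -/
noncomputable def coverHom : covObj M ⟶ M :=
  Rep.ofHom (ρ := covRep M) (σ := M.ρ) ⟨coverMap M s, fun g => by
    apply LinearMap.ext; intro f; exact coverMap_comm M s g f⟩

omit hs hP hp in
lemma ker_coverMap_le_comap (g : P) :
    LinearMap.ker (coverMap M s) ≤ (LinearMap.ker (coverMap M s)).comap ((covObj M).ρ g) := by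
  intro f hf
  rw [Submodule.mem_comap, LinearMap.mem_ker]
  rw [LinearMap.mem_ker] at hf
  change coverMap M s (covRep M g f) = 0
  rw [coverMap_comm, hf, map_zero]

/-- the kernel of the covering map as an object of `Rep`. -/
noncomputable abbrev kerObj : Rep.{0} k P :=
  Rep.subrepresentation (covObj M) (LinearMap.ker (coverMap M s)) (ker_coverMap_le_comap M s)

/-- `0 → ker → (P → M_P) → M → 0`. -/
noncomputable def coverSeq : ShortComplex (Rep.{0} k P) where
  X₁ := kerObj M s
  X₂ := covObj M
  X₃ := M
  f := Rep.subtype (covObj M) _ (ker_coverMap_le_comap M s)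
  g := coverHom M s
  zero := by
    ext v
    exact v.2

lemma shortExact_coverSeq : (coverSeq M s).ShortExact := by
  apply shortExact_of
  · exact Subtype.val_injective
  · exact coverMap_surjective M s hs p hP hp
  · intro x hx
    exact ⟨⟨x, hx⟩, rfl⟩

/-- the covering map is injective when `H₁(P, M) = 0`. -/
lemma coverMap_injective (h : Limits.IsZero (groupHomology M 1)) :
    Function.Injective (coverMap M s) := by
  classical
  have hX := shortExact_coverSeq M s hs p hP hp
  -- every element of the kernel lies in the augmentation submodule of the kernel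
  have hK : Representation.Coinvariants.ker (kerObj M s).ρ = ⊤ := by
    rw [eq_top_iff]
    intro x _
    refine mem_coinvariantsKer_of_isZero hX h x ?_
    change (x : P → Cv M) ∈ Representation.Coinvariants.ker (covRep M)
    apply mem_ker_of_sum_eq_zero
    rw [← mk_coverMap M s hs]
    have := x.2
    rw [LinearMap.mem_ker] at this
    rw [this, map_zero]
  have hbot : (⊥ : Submodule k (kerObj M s).V) = ⊤ := by
    apply nakayama_pGroup p hP (kerObj M s).ρ
    · intro x
      apply Subtype.ext
      funext h
      exact nsmul_cv_eq_zero M p hp _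
    · intro g x hx
      rw [Submodule.mem_bot] at hx
      rw [hx, map_zero]
      exact Submodule.zero_mem _
    · rw [hK, sup_top_eq]
  rw [← LinearMap.ker_eq_bot, eq_bot_iff]
  intro f hf
  have : (⟨f, hf⟩ : (kerObj M s).V) ∈ (⊥ : Submodule k (kerObj M s).V) := by
    rw [hbot]; trivial
  rw [Submodule.mem_bot] at this
  exact congrArg Subtype.val this

end Cover

section Transport

variable {k : Type*} [CommRing k] {P : Type*} [Group P] [Fintype P]
  {V W : Type*} [AddCommGroup V] [Module k V] [AddCommGroup W] [Module k W]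

/-- relative projectivity is invariant under equivariant linear equivalences. -/
lemma IsRelProj.of_equiv {ρ : Representation k P V} {σ : Representation k P W} (e : V ≃ₗ[k] W)
    (he : ∀ g v, e (ρ g v) = σ g (e v)) (h : IsRelProj ρ) : IsRelProj σ := by
  obtain ⟨π, hπ⟩ := h
  refine ⟨e.toLinearMap ∘ₗ π ∘ₗ e.symm.toLinearMap, ?_⟩
  apply LinearMap.ext; intro w
  have hsymm : ∀ g w, e.symm (σ g w) = ρ g (e.symm w) := by
    intro g w
    apply e.injective
    rw [he, e.apply_symm_apply, e.apply_symm_apply]
  have h1 := congrArg (fun φ => e (φ (e.symm w))) hπ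
  simp only [LinearMap.sum_apply, LinearMap.comp_apply, LinearMap.id_apply, map_sum,
    LinearEquiv.apply_symm_apply] at h1
  simp only [LinearMap.sum_apply, LinearMap.comp_apply, LinearMap.id_apply,
    LinearEquiv.coe_coe]
  refine (Finset.sum_congr rfl (fun g _ => ?_)).trans h1
  rw [hsymm, he]

end Transport

section Final

/-- Generic coefficient ring: a `p`-torsion representation `M` of a `p`-group with `H₁(P, M) = 0`
and a linear section of `M → M_P` is relatively projective (it is `P → M_P`). -/
theorem isRelProj_of_section {k : Type} [CommRing k] {P : Type} [Group P] [Fintype P]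
    (p : ℕ) [Fact p.Prime] (hP : IsPGroup p P) (M : Rep.{0} k P) (hp : ∀ x : M.V, p • x = 0)
    (s : Cv M →ₗ[k] M.V) (hs : ∀ v, Representation.Coinvariants.mk M.ρ (s v) = v)
    (h : Limits.IsZero (groupHomology M 1)) : IsRelProj M.ρ := by
  have hinj := coverMap_injective M s hs p hP hp h
  have hsurj := coverMap_surjective M s hs p hP hp
  exact IsRelProj.of_equiv (LinearEquiv.ofBijective (coverMap M s) ⟨hinj, hsurj⟩)
    (fun g v => coverMap_comm M s g v) (isRelProj_midRep _)

/-- The equivariant isomorphism `(P → M_P) ≃ M` behind `isRelProj_of_section`. -/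
theorem exists_equiv_of_section {k : Type} [CommRing k] {P : Type} [Group P] [Fintype P]
    (p : ℕ) [Fact p.Prime] (hP : IsPGroup p P) (M : Rep.{0} k P) (hp : ∀ x : M.V, p • x = 0)
    (s : Cv M →ₗ[k] M.V) (hs : ∀ v, Representation.Coinvariants.mk M.ρ (s v) = v)
    (h : Limits.IsZero (groupHomology M 1)) :
    ∃ e : (P → Cv M) ≃ₗ[k] M.V, ∀ g f, e (covRep M g f) = M.ρ g (e f) :=
  ⟨LinearEquiv.ofBijective (coverMap M s)
    ⟨coverMap_injective M s hs p hP hp h, coverMap_surjective M s hs p hP hp⟩,
    fun g v => coverMap_comm M s g v⟩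

/-- Variant of `isRelProj_of_section` with an additive section whose linearity is given
elementwise (convenient for `k = ℤ`, where `→ₗ[ℤ]` elaborates with the wrong module instance). -/
theorem isRelProj_of_addSection {k : Type} [CommRing k] {P : Type} [Group P] [Fintype P]
    (p : ℕ) [Fact p.Prime] (hP : IsPGroup p P) (M : Rep.{0} k P) (hp : ∀ x : M.V, p • x = 0)
    (s : Cv M →+ M.V) (hlin : ∀ (c : k) (v : Cv M), s (c • v) = c • s v)
    (hs : ∀ v, Representation.Coinvariants.mk M.ρ (s v) = v)
    (h : Limits.IsZero (groupHomology M 1)) : IsRelProj M.ρ :=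
  isRelProj_of_section p hP M hp
    { toFun := s, map_add' := s.map_add, map_smul' := hlin } hs h

/-- Coefficient rings that are quotients of `ℤ` (e.g. `ℤ`, `ZMod n`): no section is needed. -/
theorem isRelProj_of_H1_eq_zero_of_intCast_surjective {k : Type} [CommRing k]
    (hk : Function.Surjective (Int.cast : ℤ → k)) (p : ℕ) [Fact p.Prime]
    {P : Type} [Group P] [Fintype P] (hP : IsPGroup p P) (M : Rep.{0} k P)
    (hp : ∀ x : M.V, p • x = 0) (h : Limits.IsZero (groupHomology M 1)) : IsRelProj M.ρ := by
  obtain ⟨s, hs⟩ : ∃ s : Cv M →+ M.V,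
      ∀ v, Representation.Coinvariants.mk M.ρ (s v) = v := by
    haveI : Module (ZMod p) M.V := AddCommGroup.zmodModule hp
    haveI : Module (ZMod p) (Cv M) := AddCommGroup.zmodModule (nsmul_cv_eq_zero M p hp)
    let mk' : M.V →ₗ[ZMod p] Cv M :=
      AddMonoidHom.toZModLinearMap p (Representation.Coinvariants.mk M.ρ).toAddMonoidHom
    have hsurj : LinearMap.range mk' = ⊤ :=
      LinearMap.range_eq_top.2 (Representation.Coinvariants.mk_surjective M.ρ)
    obtain ⟨g, hg⟩ := LinearMap.exists_rightInverse_of_surjective mk' hsurj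
    refine ⟨g.toAddMonoidHom, fun v => ?_⟩
    exact congrArg (fun f => f v) hg
  refine isRelProj_of_addSection p hP M hp s (fun c v => ?_) hs h
  obtain ⟨n, rfl⟩ := hk c
  exact map_intCast_smul s k k n v

/-- **helper45 #1812**: a `ℤ[P]`-module killed by `p`, `P` a `p`-group, with `H₁(P, M) = 0` is
relatively projective. -/
theorem isRelProj_of_H1_eq_zero (p : ℕ) [Fact p.Prime] {P : Type} [Group P] [Fintype P]
    (hP : IsPGroup p P) (M : Rep.{0} ℤ P) (hp : ∀ x : M.V, p • x = 0)
    (h : Limits.IsZero (groupHomology M 1)) : IsRelProj M.ρ :=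
  isRelProj_of_H1_eq_zero_of_intCast_surjective (fun c => ⟨c, Int.cast_id⟩) p hP M hp h

end Final

end Fermat.Agent.S55.TateCrit45
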