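import Fermat.Agent.S55.TateCrit45.Sylow

set_option autoImplicit false
set_option linter.style.haveILetI false
set_option linter.unusedSectionVars false

open CategoryTheory groupCohomology

namespace Fermat.Agent.S55.TateCrit45

/-! Whole-group versions (no subgroup) of the shifting isomorphisms, `|G|` kills `Ĥⁿ(G, A)`,
and the two statements consumed by `TateNak43.CritFree`. -/

variable {k : Type} [CommRing k] {G : Type} [Group G] [Fintype G]

section LES

variable {S : ShortComplex (Rep.{0} k G)} (hS : S.ShortExact)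

lemma mono_δ_of_isZero (n : ℤ) (h2 : Limits.IsZero (tateCohomology S.X₂ n)) :
    Mono (TateCohomology.δ hS n) :=
  (TateCohomology.exact₃ hS n).mono_g (h2.eq_of_src _ _)

lemma epi_δ_of_isZero (n : ℤ) (h2 : Limits.IsZero (tateCohomology S.X₂ (n + 1))) :
    Epi (TateCohomology.δ hS n) :=
  (TateCohomology.exact₁ hS n).epi_f (h2.eq_of_tgt _ _)

/-- Dimension shifting for the whole group. -/
noncomputable def shiftIsoTop (h2 : ∀ n : ℤ, Limits.IsZero (tateCohomology S.X₂ n)) (n : ℤ) :
    tateCohomology S.X₃ n ≅ tateCohomology S.X₁ (n + 1) :=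
  haveI := mono_δ_of_isZero hS n (h2 n)
  haveI := epi_δ_of_isZero hS n (h2 (n + 1))
  haveI : IsIso (TateCohomology.δ hS n) := isIso_of_mono_of_epi _
  asIso (TateCohomology.δ hS n)

end LES

/-- `Ĥⁿ(G, A) ≅ Hⁿ(G, A)` for `n ≥ 1`. -/
noncomputable def tateIsoGroupCohomology (A : Rep.{0} k G) (n : ℕ) [NeZero n] :
    tateCohomology A n ≅ groupCohomology A n :=
  (TateCohomology.isoGroupCohomology n).app A

variable (hT1 : T1Statement k)
include hT1

lemma isZero_tate_mid (A : Rep.{0} k G) (n : ℤ) : Limits.IsZero (tateCohomology (mid A) n) :=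
  hT1 G (mid A) (isRelProj_midRep A.ρ) n

/-- `Ĥⁿ(G, A⁺) ≅ Ĥⁿ⁺¹(G, A)`. -/
noncomputable def upIsoTop (A : Rep.{0} k G) (n : ℤ) :
    tateCohomology (up A) n ≅ tateCohomology A (n + 1) :=
  shiftIsoTop (shortExact_upSeq A) (isZero_tate_mid hT1 A) n

/-- `Ĥⁿ(G, A) ≅ Ĥⁿ⁺¹(G, A⁻)`. -/
noncomputable def downIsoTop (A : Rep.{0} k G) (n : ℤ) :
    tateCohomology A n ≅ tateCohomology (down A) (n + 1) :=
  shiftIsoTop (shortExact_downSeq A) (isZero_tate_mid hT1 A) n

/-- `|G|` kills `Ĥⁿ(G, A)`. -/
theorem card_nsmul_tate_eq_zero (n : ℤ) (A : Rep.{0} k G) (x : tateCohomology A n) :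
    Fintype.card G • x = 0 := by
  revert x
  revert A n
  apply shift_induction (Φ := fun n A => ∀ x : tateCohomology A n, Fintype.card G • x = 0) 1
  · intro A x
    have h1 := card_nsmul_H1_eq_zero A ((tateIsoGroupCohomology A 1).hom x)
    rw [Nat.card_eq_fintype_card, ← map_nsmul] at h1
    have h2 := congrArg (tateIsoGroupCohomology A 1).inv h1
    simpa using h2
  · intro n A ih x
    have h1 := ih ((upIsoTop hT1 A n).inv x)
    rw [← map_nsmul] at h1
    have h2 := congrArg (upIsoTop hT1 A n).hom h1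
    simpa using h2
  · intro n A ih x
    have h1 := ih ((downIsoTop hT1 A n).hom x)
    rw [← map_nsmul] at h1
    have h2 := congrArg (downIsoTop hT1 A n).inv h1
    simpa using h2

omit [Fintype G] in
/-- `TateNak43.CritFree.CardKills`, unfolded. -/
theorem cardKills : ∀ (H : Type) [Group H] [Fintype H] (X : Rep.{0} k H) (n : ℤ)
    (x : tateCohomology X n), Fintype.card H • x = 0 :=
  fun _ _ _ X n x => card_nsmul_tate_eq_zero hT1 n X x

/-- `TateNak43.CritFree.SylowDetect G`, unfolded. -/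
theorem sylowDetect : ∀ (A : Rep.{0} k G) (n : ℤ) (H : Subgroup G),
    (∀ (p : ℕ) [Fact p.Prime] (P : Subgroup G), P ≤ H → IsPGroup p P →
      Limits.IsZero (tateSub A P n)) → Limits.IsZero (tateSub A H n) :=
  fun A n H h => isZero_tateSub_of_pSubgroups hT1 H n A
    (fun p P hp hPH hP => haveI : Fact p.Prime := ⟨hp⟩; h p P hPH hP)

end Fermat.Agent.S55.TateCrit45
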