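import Mathlib

set_option autoImplicit false
set_option linter.style.haveILetI false

open CategoryTheory

namespace Fermat.Agent.S55.TateCrit45

variable {k : Type} [CommRing k] {G : Type} [Group G] [Fintype G]

/-- Tate cohomology of the restriction to a subgroup. -/
noncomputable abbrev tateSub (A : Rep.{0} k G) (H : Subgroup G) (n : ℤ) : ModuleCat k :=
  haveI : Fintype H := Fintype.ofFinite H
  tateCohomology (Rep.res H.subtype A) n

/-- Cohomological triviality: all Tate groups of all subgroups vanish. -/
def CohTrivial (A : Rep.{0} k G) : Prop :=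
  ∀ (H : Subgroup G) (n : ℤ), Limits.IsZero (tateSub A H n)

/-- A representation is *relatively projective* if the identity is a norm. -/
def IsRelProj {k H V : Type*} [CommSemiring k] [Group H] [Fintype H] [AddCommGroup V]
    {_ : Module k V} (ρ : Representation k H V) : Prop :=
  ∃ π : V →ₗ[k] V, (∑ h : H, ρ h ∘ₗ π ∘ₗ ρ h⁻¹) = LinearMap.id

/-- The input (T1): relatively projective representations are Tate-acyclic. -/
def T1Statement (k : Type) [CommRing k] : Prop :=
  ∀ (H : Type) [Group H] [Fintype H] (X : Rep.{0} k H), IsRelProj X.ρ →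
    ∀ n : ℤ, Limits.IsZero (tateCohomology X n)

section LES

variable {S : ShortComplex (Rep.{0} k G)} (hS : S.ShortExact)

omit [Fintype G] in
include hS in
lemma shortExact_resSub (H : Subgroup G) :
    (S.map (Rep.resFunctor H.subtype)).ShortExact :=
  (Rep.shortExact_res H.subtype).2 hS

/-- The connecting map of the restricted sequence. -/
noncomputable def δSub (H : Subgroup G) (n : ℤ) : tateSub S.X₃ H n ⟶ tateSub S.X₁ H (n + 1) :=
  letI : Fintype H := Fintype.ofFinite H
  TateCohomology.δ (shortExact_resSub hS H) n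

lemma mono_δSub (H : Subgroup G) (n : ℤ) (h2 : Limits.IsZero (tateSub S.X₂ H n)) :
    Mono (δSub hS H n) := by
  letI : Fintype H := Fintype.ofFinite H
  have hex := TateCohomology.exact₃ (shortExact_resSub hS H) n
  exact hex.mono_g (h2.eq_of_src _ _)

lemma epi_δSub (H : Subgroup G) (n : ℤ) (h2 : Limits.IsZero (tateSub S.X₂ H (n + 1))) :
    Epi (δSub hS H n) := by
  letI : Fintype H := Fintype.ofFinite H
  have hex := TateCohomology.exact₁ (shortExact_resSub hS H) n
  exact hex.epi_f (h2.eq_of_tgt _ _)

lemma isIso_δSub (H : Subgroup G) (n : ℤ) (h2 : Limits.IsZero (tateSub S.X₂ H n))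
    (h2' : Limits.IsZero (tateSub S.X₂ H (n + 1))) : IsIso (δSub hS H n) := by
  haveI := mono_δSub hS H n h2
  haveI := epi_δSub hS H n h2'
  exact isIso_of_mono_of_epi _

/-- Dimension shifting along a short exact sequence with cohomologically trivial middle. -/
noncomputable def shiftIso (h2 : CohTrivial S.X₂) (H : Subgroup G) (n : ℤ) :
    tateSub S.X₃ H n ≅ tateSub S.X₁ H (n + 1) :=
  haveI := isIso_δSub hS H n (h2 H n) (h2 H (n + 1))
  asIso (δSub hS H n)

include hS in
lemma isZero_shift (h2 : CohTrivial S.X₂) (H : Subgroup G) (n : ℤ) :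
    Limits.IsZero (tateSub S.X₃ H n) ↔ Limits.IsZero (tateSub S.X₁ H (n + 1)) :=
  (shiftIso hS h2 H n).isZero_iff

include hS in
/-- exactness in the middle: if the outer terms vanish so does the middle one. -/
lemma isZero_mid_of (H : Subgroup G) (n : ℤ) (h1 : Limits.IsZero (tateSub S.X₁ H n))
    (h3 : Limits.IsZero (tateSub S.X₃ H n)) : Limits.IsZero (tateSub S.X₂ H n) := by
  letI : Fintype H := Fintype.ofFinite H
  have hex := (TateCohomology.map_tateComplexFunctor_shortExact
    (shortExact_resSub hS H)).homology_exact₂ n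
  exact hex.isZero_of_both_zeros (h1.eq_of_src _ _) (h3.eq_of_tgt _ _)

end LES

omit [Fintype G] in
/-- A criterion for short exactness in `Rep`. -/
lemma shortExact_of {S : ShortComplex (Rep.{0} k G)} (hf : Function.Injective S.f.hom)
    (hg : Function.Surjective S.g.hom)
    (hex : ∀ x : S.X₂, S.g.hom x = 0 → ∃ y : S.X₁, S.f.hom y = x) : S.ShortExact where
  exact := (forget₂ (Rep.{0} k G) (ModuleCat.{0} k)).reflects_exact_of_faithful _ <|
    (ShortComplex.moduleCat_exact_iff _).2 fun x hx => hex x hx
  mono_f := (Rep.mono_iff_injective _).2 hf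
  epi_g := (Rep.epi_iff_surjective _).2 hg

end Fermat.Agent.S55.TateCrit45
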