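import Mathlib

set_option autoImplicit false
set_option linter.style.haveILetI false
set_option linter.unusedSectionVars false

namespace Fermat.Agent.S55.TateCrit45

section Nakayama

variable (p : ℕ) [hp : Fact p.Prime] {P : Type*} [Group P] [Finite P] {C : Type*} [AddCommGroup C]
  {mC : Module ℤ C} (ρ : Representation ℤ P C)

/-- precomposition of an additive functional with `ρ g⁻¹` -/
def dualAct (g : P) (φ : C →+ ZMod p) : C →+ ZMod p :=
  φ.comp (ρ g⁻¹).toAddMonoidHom

@[simp] lemma dualAct_apply (g : P) (φ : C →+ ZMod p) (c : C) :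
    dualAct p ρ g φ c = φ (ρ g⁻¹ c) := rfl

lemma dualAct_one (φ : C →+ ZMod p) : dualAct p ρ 1 φ = φ := by
  ext c; simp

lemma dualAct_mul (g h : P) (φ : C →+ ZMod p) :
    dualAct p ρ (g * h) φ = dualAct p ρ g (dualAct p ρ h φ) := by
  ext c; simp [mul_inv_rev, map_mul]

/-- the translates of `f` combined with coefficients `φ : P → ZMod p` -/
noncomputable def translateSum (f : C →+ ZMod p) : (P → ZMod p) →+ (C →+ ZMod p) :=
  letI : Fintype P := Fintype.ofFinite P
  { toFun := fun φ => ∑ h : P, φ h • dualAct p ρ h f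
    map_zero' := by simp
    map_add' := fun φ ψ => by simp [add_smul, Finset.sum_add_distrib] }

lemma translateSum_apply (f : C →+ ZMod p) (φ : P → ZMod p) (c : C) :
    letI : Fintype P := Fintype.ofFinite P
    translateSum p ρ f φ c = ∑ h : P, φ h * f (ρ h⁻¹ c) := by
  simp [translateSum]

lemma dualAct_translateSum (f : C →+ ZMod p) (g : P) (φ : P → ZMod p) :
    dualAct p ρ g (translateSum p ρ f φ) = translateSum p ρ f (fun h => φ (g⁻¹ * h)) := by
  letI : Fintype P := Fintype.ofFinite P
  ext c
  rw [dualAct_apply, translateSum_apply, translateSum_apply]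
  apply Fintype.sum_equiv (Equiv.mulLeft g)
  intro h
  simp [mul_inv_rev, map_mul]

/-- **Nakayama's lemma for `p`-groups**: a `p`-torsion module over a finite `p`-group whose
coinvariants vanish is zero. -/
theorem subsingleton_of_coinvariantsKer_eq_top (hP : IsPGroup p P) (hpC : ∀ x : C, p • x = 0)
    (h : ∀ c : C, c ∈ Representation.Coinvariants.ker ρ) : Subsingleton C := by
  classical
  have hm : mC = AddCommGroup.toIntModule C := Subsingleton.elim _ _
  subst hm
  by_contra hns
  rw [not_subsingleton_iff_nontrivial] at hns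
  obtain ⟨x₀, hx₀⟩ := exists_ne (0 : C)
  -- a functional with `f x₀ ≠ 0`
  haveI : Module (ZMod p) C := AddCommGroup.zmodModule hpC
  have hex : ∃ f' : C →ₗ[ZMod p] ZMod p, f' x₀ ≠ 0 :=
    Module.Projective.exists_dual_ne_zero (ZMod p) hx₀
  obtain ⟨f', hf'⟩ := hex
  let f : C →+ ZMod p := f'.toAddMonoidHom
  have hf : f x₀ ≠ 0 := hf'
  letI : Fintype P := Fintype.ofFinite P
  let T : (P → ZMod p) →+ (C →+ ZMod p) := translateSum p ρ f
  let W : AddSubgroup (C →+ ZMod p) := T.range
  haveI : Finite W := by
    have : Finite (Set.range T) := Set.finite_range T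
    exact this
  -- `f ∈ W`
  have hfW : f ∈ W := by
    refine ⟨Pi.single 1 1, ?_⟩
    ext c
    change translateSum p ρ f (Pi.single 1 1) c = f c
    rw [translateSum_apply, Finset.sum_eq_single 1]
    · simp
    · intro h _ hh; simp [Pi.single_eq_of_ne hh]
    · intro h1; exact absurd (Finset.mem_univ _) h1
  -- the action of `P` on `W`
  letI : MulAction P W :=
    { smul := fun g w => ⟨dualAct p ρ g w.1, by
        obtain ⟨φ, hφ⟩ := w.2
        refine ⟨fun h => φ (g⁻¹ * h), ?_⟩
        change translateSum p ρ f _ = _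
        rw [← dualAct_translateSum]
        exact congrArg _ hφ⟩
      one_smul := fun w => Subtype.ext (dualAct_one p ρ w.1)
      mul_smul := fun g h w => Subtype.ext (dualAct_mul p ρ g h w.1) }
  have hsmul : ∀ (g : P) (w : W), ((g • w : W) : C →+ ZMod p) = dualAct p ρ g w.1 := fun _ _ => rfl
  -- `p ∣ card W`
  have hcardW : p ∣ Nat.card W := by
    have h1 : Nat.card W ∣ Nat.card (P → ZMod p) :=
      AddSubgroup.card_dvd_of_surjective T.rangeRestrict T.rangeRestrict_surjective
    rw [Nat.card_fun, Nat.card_zmod] at h1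
    obtain ⟨m, _, hm⟩ := (Nat.dvd_prime_pow hp.out).1 h1
    rcases Nat.eq_zero_or_pos m with rfl | hm0
    · exfalso
      rw [pow_zero] at hm
      have hsub : Subsingleton W := (Nat.card_eq_one_iff_unique.1 hm).1
      have := congrArg Subtype.val (Subsingleton.elim (⟨f, hfW⟩ : W) 0)
      have h0 : f x₀ = 0 := by
        have := DFunLike.congr_fun this x₀
        simpa using this
      exact hf h0
    · rw [hm]; exact dvd_pow_self p hm0.ne'
  -- a nonzero fixed point
  have hmod := hP.card_modEq_card_fixedPoints W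
  have hfix : p ∣ Nat.card (MulAction.fixedPoints P W) :=
    (Nat.modEq_zero_iff_dvd.1 ((hmod.symm).trans (Nat.modEq_zero_iff_dvd.2 hcardW)))
  have h0fix : (0 : W) ∈ MulAction.fixedPoints P W := by
    intro g
    apply Subtype.ext
    rw [hsmul]
    ext c; simp
  haveI : Nonempty (MulAction.fixedPoints P W) := ⟨⟨0, h0fix⟩⟩
  have hpos : 0 < Nat.card (MulAction.fixedPoints P W) := Nat.card_pos
  have hlt : 1 < Nat.card (MulAction.fixedPoints P W) :=
    lt_of_lt_of_le hp.out.one_lt (Nat.le_of_dvd hpos hfix)
  haveI : Nontrivial (MulAction.fixedPoints P W) := Finite.one_lt_card_iff_nontrivial.1 hlt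
  obtain ⟨w, hw⟩ := exists_ne (⟨0, h0fix⟩ : MulAction.fixedPoints P W)
  -- `w` is an invariant functional
  have hinv : ∀ (g : P) (c : C), (w.1.1 : C →+ ZMod p) (ρ g c) = w.1.1 c := by
    intro g c
    have h1 := w.2 g⁻¹
    have h2 := congrArg Subtype.val h1
    rw [hsmul] at h2
    have h3 := DFunLike.congr_fun h2 c
    simpa using h3
  -- hence zero
  have hzero : ∀ c : C, (w.1.1 : C →+ ZMod p) c = 0 := by
    intro c
    have hc := h c
    unfold Representation.Coinvariants.ker at hc
    induction hc using Submodule.span_induction with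
    | mem x hx =>
      obtain ⟨⟨g, y⟩, rfl⟩ := hx
      simp [hinv]
    | zero => simp
    | add x y _ _ hx hy => rw [map_add, hx, hy, add_zero]
    | smul n x _ hx =>
      rw [map_zsmul, hx, smul_zero]
  apply hw
  apply Subtype.ext
  apply Subtype.ext
  ext c
  exact hzero c

end Nakayama

end Fermat.Agent.S55.TateCrit45
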