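import Fermat.Agent.S55.TateCrit45.RelProj

set_option autoImplicit false
set_option linter.style.haveILetI false
set_option linter.unusedSectionVars false

open CategoryTheory

namespace Fermat.Agent.S55.TateCrit45

section MidRep

variable {k : Type*} [CommRing k] {G : Type*} [Group G] {V : Type*} [AddCommGroup V]
  [Module k V] (ρ : Representation k G V)

/-- The representation on functions `G → V` with `(g f)(h) = ρ g (f (g⁻¹ h))`. -/
def midRep : Representation k G (G → V) where
  toFun g :=
    { toFun := fun f h => ρ g (f (g⁻¹ * h))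
      map_add' := fun f₁ f₂ => by ext h; simp
      map_smul' := fun c f => by ext h; simp }
  map_one' := by
    apply LinearMap.ext; intro f; ext h; simp
  map_mul' g₁ g₂ := by
    apply LinearMap.ext; intro f; ext h; simp [mul_assoc]

@[simp] lemma midRep_apply (g : G) (f : G → V) (h : G) :
    midRep ρ g f h = ρ g (f (g⁻¹ * h)) := rfl

/-- constant functions -/
def constLin (k : Type*) [CommRing k] {G V : Type*} [AddCommGroup V] [Module k V] :
    V →ₗ[k] (G → V) := LinearMap.pi (fun _ => LinearMap.id)

@[simp] lemma constLin_apply (v : V) (h : G) : constLin k (G := G) v h = v := rfl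

lemma constLin_comm (g : G) (v : V) : constLin k (ρ g v) = midRep ρ g (constLin k v) := by
  ext h; simp

lemma constLin_injective [Nonempty G] : Function.Injective (constLin k (G := G) (V := V)) := by
  intro v w h
  have := congrFun h (Classical.arbitrary G)
  simpa using this

variable [Fintype G]

/-- the sum of the values -/
def sumLin (k : Type*) [CommRing k] {G V : Type*} [Fintype G] [AddCommGroup V] [Module k V] :
    (G → V) →ₗ[k] V := ∑ h : G, LinearMap.proj h

@[simp] lemma sumLin_apply (f : G → V) : sumLin k f = ∑ h : G, f h := by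
  simp [sumLin]

lemma sumLin_comm (g : G) (f : G → V) : sumLin k (midRep ρ g f) = ρ g (sumLin k f) := by
  simp only [sumLin_apply, midRep_apply, map_sum]
  exact Fintype.sum_equiv (Equiv.mulLeft g⁻¹) _ _ (fun h => rfl)

lemma sumLin_surjective [DecidableEq G] : Function.Surjective (sumLin k (G := G) (V := V)) := by
  intro v
  refine ⟨Pi.single 1 v, ?_⟩
  simp

/-- `midRep` is relatively projective. -/
lemma isRelProj_midRep : IsRelProj (midRep ρ) := by
  classical
  refine ⟨(LinearMap.single k (fun _ : G => V) 1) ∘ₗ (LinearMap.proj 1), ?_⟩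
  apply LinearMap.ext; intro f
  ext h
  simp only [LinearMap.sum_apply, LinearMap.comp_apply, LinearMap.proj_apply, midRep_apply,
    LinearMap.id_apply, Finset.sum_apply, LinearMap.coe_single, inv_inv, mul_one]
  rw [Finset.sum_eq_single h]
  · simp
  · intro g _ hg
    rw [Pi.single_eq_of_ne, map_zero]
    intro h1
    exact hg (by rw [inv_mul_eq_one] at h1; exact h1)
  · intro h1; exact absurd (Finset.mem_univ _) h1

end MidRep

section RepLevel

variable {k : Type} [CommRing k] {G : Type} [Group G] [Fintype G]

lemma cohTrivial_of_isRelProj (hT1 : T1Statement k) (A : Rep.{0} k G) (h : IsRelProj A.ρ) :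
    CohTrivial A := by
  intro H n
  letI : Fintype H := Fintype.ofFinite H
  exact hT1 H (Rep.res H.subtype A) (h.comp_subtype A.ρ H) n

variable (A : Rep.{0} k G)

/-- The middle term of both shifting sequences. -/
noncomputable abbrev mid : Rep.{0} k G := Rep.of (midRep A.ρ)

lemma cohTrivial_mid (hT1 : T1Statement k) : CohTrivial (mid A) :=
  cohTrivial_of_isRelProj hT1 _ (isRelProj_midRep A.ρ)

/-- `a ↦ const a`. -/
noncomputable def midι : A ⟶ mid A :=
  Rep.ofHom (ρ := A.ρ) (σ := midRep A.ρ) ⟨constLin k, fun g => by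
    apply LinearMap.ext; intro v; exact constLin_comm A.ρ g v⟩

/-- `f ↦ ∑ f h`. -/
noncomputable def midε : mid A ⟶ A :=
  Rep.ofHom (ρ := midRep A.ρ) (σ := A.ρ) ⟨sumLin k, fun g => by
    apply LinearMap.ext; intro f; exact sumLin_comm A.ρ g f⟩

lemma range_const_le_comap (g : G) :
    LinearMap.range (constLin k (G := G) (V := A.V)) ≤
      (LinearMap.range (constLin k (G := G) (V := A.V))).comap ((mid A).ρ g) := by
  rintro _ ⟨v, rfl⟩
  exact ⟨A.ρ g v, constLin_comm A.ρ g v⟩

lemma ker_sum_le_comap (g : G) :
    LinearMap.ker (sumLin k (G := G) (V := A.V)) ≤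
      (LinearMap.ker (sumLin k (G := G) (V := A.V))).comap ((mid A).ρ g) := by
  intro f hf
  rw [Submodule.mem_comap, LinearMap.mem_ker]
  rw [LinearMap.mem_ker] at hf
  change sumLin k (midRep A.ρ g f) = 0
  rw [sumLin_comm, hf, map_zero]

/-- The upward shift `A⁺ = (G → A) / A`. -/
noncomputable abbrev up : Rep.{0} k G :=
  Rep.quotient (mid A) (LinearMap.range (constLin k)) (range_const_le_comap A)

/-- The downward shift `A⁻ = ker ((G → A) → A)`. -/
noncomputable abbrev down : Rep.{0} k G :=
  Rep.subrepresentation (mid A) (LinearMap.ker (sumLin k)) (ker_sum_le_comap A)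

/-- `0 → A → (G → A) → A⁺ → 0`. -/
noncomputable def upSeq : ShortComplex (Rep.{0} k G) where
  X₁ := A
  X₂ := mid A
  X₃ := up A
  f := midι A
  g := Rep.mkQ (mid A) _ (range_const_le_comap A)
  zero := by
    ext v
    exact (Submodule.Quotient.mk_eq_zero _).2 ⟨v, rfl⟩

/-- `0 → A⁻ → (G → A) → A → 0`. -/
noncomputable def downSeq : ShortComplex (Rep.{0} k G) where
  X₁ := down A
  X₂ := mid A
  X₃ := A
  f := Rep.subtype (mid A) _ (ker_sum_le_comap A)
  g := midε A
  zero := by
    ext v
    exact v.2

lemma shortExact_upSeq : (upSeq A).ShortExact := by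
  apply shortExact_of
  · exact constLin_injective
  · exact Submodule.mkQ_surjective _
  · intro x hx
    exact (Submodule.Quotient.mk_eq_zero _).1 hx

lemma shortExact_downSeq : (downSeq A).ShortExact := by
  classical
  apply shortExact_of
  · exact Subtype.val_injective
  · exact sumLin_surjective
  · intro x hx
    exact ⟨⟨x, hx⟩, rfl⟩

variable (hT1 : T1Statement k)
include hT1

lemma isZero_tateSub_up (H : Subgroup G) (n : ℤ) :
    Limits.IsZero (tateSub (up A) H n) ↔ Limits.IsZero (tateSub A H (n + 1)) :=
  isZero_shift (shortExact_upSeq A) (cohTrivial_mid A hT1) H n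

lemma isZero_tateSub_down (H : Subgroup G) (n : ℤ) :
    Limits.IsZero (tateSub A H n) ↔ Limits.IsZero (tateSub (down A) H (n + 1)) :=
  isZero_shift (shortExact_downSeq A) (cohTrivial_mid A hT1) H n

/-- `Ĥ^n(H, A⁺) ≅ Ĥ^{n+1}(H, A)`. -/
noncomputable def upIso (H : Subgroup G) (n : ℤ) : tateSub (up A) H n ≅ tateSub A H (n + 1) :=
  shiftIso (shortExact_upSeq A) (cohTrivial_mid A hT1) H n

/-- `Ĥ^n(H, A) ≅ Ĥ^{n+1}(H, A⁻)`. -/
noncomputable def downIso (H : Subgroup G) (n : ℤ) : tateSub A H n ≅ tateSub (down A) H (n + 1) :=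
  shiftIso (shortExact_downSeq A) (cohTrivial_mid A hT1) H n

end RepLevel

end Fermat.Agent.S55.TateCrit45
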