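/-
S55 / 11a2-TATE-CRIT, second seat (helper4): for a finite `p`-group `P`, a `p`-torsion
representation `M` with `H₁(P, M) = 0` is relatively projective (free over `𝔽_p[P]`).
-/
import Fermat.Agent.S55.TateCrit45.Shift

set_option autoImplicit false
set_option linter.style.haveILetI false
set_option linter.unusedSectionVars false

open CategoryTheory Representation

namespace Fermat.Agent.S55.TateCrit45.PGroup4

open Fermat.Agent.S55.TateCrit45

section Nakayama

variable {k : Type*} [CommRing k] (p : ℕ) [hpp : Fact p.Prime] {P : Type*} [Group P] [Finite P]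
  {C : Type*} [AddCommGroup C] [Module k C] (ρ : Representation k P C)

theorem nakayama_aux [Module (ZMod p) C] (hP : IsPGroup p P) (N : Submodule k C)
    (hN : ∀ g, N ≤ N.comap (ρ g)) (h : N ⊔ Coinvariants.ker ρ = ⊤) : N = ⊤ := by
  classical
  by_contra hne
  obtain ⟨c, hc⟩ : ∃ c, c ∉ N := by
    by_contra hall
    exact hne (eq_top_iff.2 fun x _ => by
      by_contra hx
      exact hall ⟨x, hx⟩)
  -- `ZMod p`-linear version of `ρ`
  let σ : P → (C →ₗ[ZMod p] C) := fun g => (ρ g).toAddMonoidHom.toZModLinearMap p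
  have hσ : ∀ (g : P) (x : C), (σ g) x = ρ g x := fun g x => rfl
  have hσmul : ∀ (g h : P), σ (g * h) = σ g ∘ₗ σ h := by
    intro g h; apply LinearMap.ext; intro x
    simp only [hσ, LinearMap.comp_apply, map_mul, Module.End.mul_apply]
  have hσone : σ 1 = LinearMap.id := by
    apply LinearMap.ext; intro x; simp [hσ]
  let N' : Submodule (ZMod p) C := AddSubgroup.toZModSubmodule p N.toAddSubgroup
  have hcN' : c ∉ N' := by
    intro hc'
    exact hc (by simpa [N'] using hc')
  obtain ⟨lam, hlc, hlN⟩ := Submodule.exists_le_ker_of_notMem (p := N') (v := c) hcN'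
  -- the action on functionals
  letI act : MulAction P (Module.Dual (ZMod p) C) :=
    { smul := fun g w => w ∘ₗ σ g⁻¹
      one_smul := fun w => by
        change w ∘ₗ σ (1 : P)⁻¹ = w
        rw [inv_one, hσone]; rfl
      mul_smul := fun g h w => by
        change w ∘ₗ σ (g * h)⁻¹ = (w ∘ₗ σ h⁻¹) ∘ₗ σ g⁻¹
        rw [mul_inv_rev, hσmul]; rfl }
  have hact : ∀ (g : P) (w : Module.Dual (ZMod p) C) x, (g • w) x = w (ρ g⁻¹ x) :=
    fun g w x => rfl
  have hact_add : ∀ (g : P) (w₁ w₂ : Module.Dual (ZMod p) C), g • (w₁ + w₂) = g • w₁ + g • w₂ := by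
    intro g w₁ w₂; apply LinearMap.ext; intro x; simp [hact]
  have hact_zero : ∀ (g : P), g • (0 : Module.Dual (ZMod p) C) = 0 := by
    intro g; apply LinearMap.ext; intro x; simp [hact]
  have hact_smul : ∀ (g : P) (a : ZMod p) (w : Module.Dual (ZMod p) C),
      g • (a • w) = a • (g • w) := by
    intro g a w; apply LinearMap.ext; intro x; simp [hact]
  let W : Submodule (ZMod p) (Module.Dual (ZMod p) C) :=
    Submodule.span (ZMod p) (Set.range fun g : P => g • lam)
  have hlamW : lam ∈ W := Submodule.subset_span ⟨1, one_smul _ _⟩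
  have hstab : ∀ (g : P) (w : Module.Dual (ZMod p) C), w ∈ W → g • w ∈ W := by
    intro g w hw
    induction hw using Submodule.span_induction with
    | mem x hx =>
      obtain ⟨h, rfl⟩ := hx
      rw [← mul_smul]
      exact Submodule.subset_span ⟨g * h, rfl⟩
    | zero => rw [hact_zero]; exact W.zero_mem
    | add x y _ _ hx hy => rw [hact_add]; exact W.add_mem hx hy
    | smul a x _ hx => rw [hact_smul]; exact W.smul_mem a hx
  -- every element of `W` kills `N`
  have hWN : ∀ w ∈ W, ∀ x ∈ N, w x = 0 := by
    intro w hw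
    induction hw using Submodule.span_induction with
    | mem y hy =>
      obtain ⟨g, rfl⟩ := hy
      intro x hx
      rw [hact]
      have hx' : ρ g⁻¹ x ∈ N := hN g⁻¹ hx
      have : ρ g⁻¹ x ∈ N' := by simpa [N'] using hx'
      exact hlN this
    | zero => intro x _; rfl
    | add y z _ _ hy hz =>
      intro x hx
      rw [LinearMap.add_apply, hy x hx, hz x hx, add_zero]
    | smul a y _ hy =>
      intro x hx
      rw [LinearMap.smul_apply, hy x hx, smul_zero]
  letI actW : MulAction P W :=
    { smul := fun g w => ⟨g • w.1, hstab g w.1 w.2⟩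
      one_smul := fun w => Subtype.ext (one_smul P w.1)
      mul_smul := fun g h w => Subtype.ext (mul_smul g h w.1) }
  have hactW : ∀ (g : P) (w : W), ((g • w : W) : Module.Dual (ZMod p) C) = g • w.1 :=
    fun g w => rfl
  haveI : Finite (Set.range fun g : P => g • lam) := Set.finite_range _
  haveI : Module.Finite (ZMod p) W :=
    Module.Finite.span_of_finite (ZMod p) (Set.finite_range fun g : P => g • lam)
  haveI : Finite W := Module.finite_of_finite (ZMod p)
  have h0fix : (0 : W) ∈ MulAction.fixedPoints P W := by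
    intro g
    apply Subtype.ext
    rw [hactW]
    exact hact_zero g
  have hlam0 : lam ≠ 0 := by
    intro h0; apply hlc; rw [h0]; rfl
  have hdvd : p ∣ Nat.card W := by
    have hne0 : (⟨lam, hlamW⟩ : W) ≠ 0 := by
      intro h0; exact hlam0 (congrArg Subtype.val h0)
    have hpz : p • (⟨lam, hlamW⟩ : W) = 0 := by
      apply Subtype.ext
      change p • lam = 0
      rw [← Nat.cast_smul_eq_nsmul (ZMod p), ZMod.natCast_self, zero_smul]
    have h1 := addOrderOf_eq_prime hpz hne0
    have h3 := addOrderOf_dvd_natCard (⟨lam, hlamW⟩ : W)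
    rwa [h1] at h3
  obtain ⟨w, hwfix, hw0⟩ :=
    hP.exists_fixed_point_of_prime_dvd_card_of_fixed_point (α := W) hdvd h0fix
  -- `w` is `P`-invariant
  have hwinv : ∀ (g : P) x, w.1 (ρ g x) = w.1 x := by
    intro g x
    have := hwfix g⁻¹
    have h2 : (g⁻¹ • w.1) x = w.1 x := by
      rw [← hactW, this]
    rw [hact, inv_inv] at h2
    exact h2
  -- `w` kills the coinvariants kernel
  have hwker : ∀ y ∈ Coinvariants.ker ρ, ∀ a : k, w.1 (a • y) = 0 := by
    intro y hy
    induction hy using Submodule.span_induction with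
    | mem z hz =>
      obtain ⟨⟨g, x⟩, rfl⟩ := hz
      intro a
      have : a • (ρ g x - x) = ρ g (a • x) - a • x := by
        rw [smul_sub, map_smul]
      rw [this, map_sub, hwinv, sub_self]
    | zero => intro a; rw [smul_zero, map_zero]
    | add y z _ _ hy hz => intro a; rw [smul_add, map_add, hy a, hz a, add_zero]
    | smul b y _ hy => intro a; rw [smul_smul]; exact hy (a * b)
  have hw_zero : w.1 = 0 := by
    apply LinearMap.ext
    intro x
    have hx : x ∈ N ⊔ Coinvariants.ker ρ := by rw [h]; trivial
    obtain ⟨n, hn, y, hy, rfl⟩ := Submodule.mem_sup.1 hx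
    have h1 := hWN w.1 w.2 n hn
    have h2 := hwker y hy 1
    rw [one_smul] at h2
    rw [map_add, h1, h2, add_zero]
    rfl
  exact hw0 (Subtype.ext hw_zero.symm)

/-- **Nakayama's lemma for `p`-groups**: if `P` is a finite `p`-group acting on a `p`-torsion
module `C` and `N` is a stable submodule with `N + I_P C = C`, then `N = C`. -/
theorem nakayama (hP : IsPGroup p P) (hp : ∀ c : C, p • c = 0) (N : Submodule k C)
    (hN : ∀ g, N ≤ N.comap (ρ g)) (h : N ⊔ Coinvariants.ker ρ = ⊤) : N = ⊤ := by
  letI : Module (ZMod p) C := AddCommGroup.zmodModule hp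
  exact nakayama_aux p ρ hP N hN h

/-- Nakayama, absolute form: `I_P C = C` forces `C = 0`. -/
theorem subsingleton_of_coinvariantsKer_eq_top (hP : IsPGroup p P) (hp : ∀ c : C, p • c = 0)
    (h : Coinvariants.ker ρ = ⊤) : Subsingleton C := by
  have := nakayama p ρ hP hp ⊥ (fun g => bot_le) (by rw [h]; simp)
  exact subsingleton_of_bot_eq_top this |> fun _ =>
    ⟨fun a b => by
      have ha : a ∈ (⊥ : Submodule k C) := by rw [this]; trivial
      have hb : b ∈ (⊥ : Submodule k C) := by rw [this]; trivial
      rw [(Submodule.mem_bot k).1 ha, (Submodule.mem_bot k).1 hb]⟩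

end Nakayama

section Main

variable {k : Type} [CommRing k] {P : Type} [Group P] [Fintype P] (M : Rep.{0} k P)
  (s : Coinvariants M.ρ →ₗ[k] M.V)

/-- the trivial representation on the coinvariants -/
abbrev trivV : Representation k P (Coinvariants M.ρ) := Representation.trivial k P _

/-- `f ↦ ∑ h, h • s (f h)` on the induced module `P → M_P`. -/
noncomputable def phi : (P → Coinvariants M.ρ) →ₗ[k] M.V :=
  ∑ h : P, (M.ρ h) ∘ₗ s ∘ₗ (LinearMap.proj h)

lemma phi_apply (f : P → Coinvariants M.ρ) : phi M s f = ∑ h : P, M.ρ h (s (f h)) := by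
  simp [phi]

lemma phi_comm (g : P) (f : P → Coinvariants M.ρ) :
    phi M s (midRep (trivV M) g f) = M.ρ g (phi M s f) := by
  simp only [phi_apply, midRep_apply, map_sum, Representation.trivial_apply]
  refine Fintype.sum_equiv (Equiv.mulLeft g⁻¹) _ _ (fun h => ?_)
  simp only [Equiv.coe_mulLeft]
  rw [← Module.End.mul_apply, ← map_mul, mul_inv_cancel_left]

lemma phi_single [DecidableEq P] (v : Coinvariants M.ρ) : phi M s (Pi.single 1 v) = s v := by
  rw [phi_apply, Finset.sum_eq_single 1]
  · simp
  · intro h _ hh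
    rw [Pi.single_eq_of_ne hh, map_zero, map_zero]
  · intro h1; exact absurd (Finset.mem_univ _) h1

section surj

variable (hs : ∀ v, Coinvariants.mk M.ρ (s v) = v) (p : ℕ) [Fact p.Prime] (hP : IsPGroup p P)
  (hp : ∀ x : M.V, p • x = 0)

include hs hP hp in
lemma range_phi_eq_top : LinearMap.range (phi M s) = ⊤ := by
  classical
  apply nakayama p M.ρ hP hp
  · intro g x hx
    obtain ⟨f, rfl⟩ := hx
    exact ⟨midRep (trivV M) g f, phi_comm M s g f⟩
  · rw [eq_top_iff]
    intro m _
    have hm : m = s (Coinvariants.mk M.ρ m) + (m - s (Coinvariants.mk M.ρ m)) := by abel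
    rw [hm]
    apply Submodule.add_mem_sup
    · exact ⟨Pi.single 1 (Coinvariants.mk M.ρ m), phi_single M s _⟩
    · rw [← Coinvariants.mk_eq_zero, map_sub, hs, sub_self]

end surj

/-- the induced module `P → M_P` as an object of `Rep` -/
noncomputable abbrev LRep : Rep.{0} k P := Rep.of (midRep (trivV M))

/-- `phi` as a morphism of representations -/
noncomputable def phiHom : LRep M ⟶ M :=
  Rep.ofHom (ρ := midRep (trivV M)) (σ := M.ρ) ⟨phi M s, fun g => by
    apply LinearMap.ext; intro f; exact phi_comm M s g f⟩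

lemma ker_phi_le_comap (g : P) :
    LinearMap.ker (phi M s) ≤ (LinearMap.ker (phi M s)).comap ((LRep M).ρ g) := by
  intro f hf
  rw [Submodule.mem_comap, LinearMap.mem_ker]
  rw [LinearMap.mem_ker] at hf
  change phi M s (midRep (trivV M) g f) = 0
  rw [phi_comm, hf, map_zero]

/-- the kernel of `phi` as a representation -/
noncomputable abbrev KRep : Rep.{0} k P :=
  Rep.subrepresentation (LRep M) (LinearMap.ker (phi M s)) (ker_phi_le_comap M s)

/-- `0 → K → L → M → 0` -/
noncomputable abbrev seq : ShortComplex (Rep.{0} k P) where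
  X₁ := KRep M s
  X₂ := LRep M
  X₃ := M
  f := Rep.subtype (LRep M) _ (ker_phi_le_comap M s)
  g := phiHom M s
  zero := by
    ext v
    exact v.2

lemma shortExact_seq (hsurj : LinearMap.range (phi M s) = ⊤) : (seq M s).ShortExact := by
  apply shortExact_of
  · exact Subtype.val_injective
  · exact LinearMap.range_eq_top.1 hsurj
  · intro x hx
    exact ⟨⟨x, hx⟩, rfl⟩


section inj

variable (hsurj : LinearMap.range (phi M s) = ⊤) (h : Limits.IsZero (groupHomology M 1))

include hsurj h in
/-- `H₁(P, M) = 0` makes `K_P → L_P` injective. -/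
lemma coinvariants_map_f_injective :
    Function.Injective ((Rep.coinvariantsFunctor k P).map (seq M s).f).hom := by
  have hS := shortExact_seq M s hsurj
  have hex := (groupHomology.map_chainsFunctor_shortExact hS).homology_exact₁ 1 0 rfl
  have h3 : Limits.IsZero (groupHomology (seq M s).X₃ 1) := h
  have hf : (ShortComplex.mk _ _
      ((groupHomology.map_chainsFunctor_shortExact hS).δ_comp 1 0 rfl)).f = 0 :=
    h3.eq_of_src _ _
  have hm := hex.mono_g hf
  have e0 : HomologicalComplex.homologyMap
      ((seq M s).map (groupHomology.chainsFunctor k P)).f 0 =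
      (groupHomology.functor k P 0).map (seq M s).f := rfl
  have hmono' : Mono ((groupHomology.functor k P 0).map (seq M s).f) := by
    rw [← e0]; exact hm
  have hinj_map : Function.Injective ((groupHomology.functor k P 0).map (seq M s).f).hom :=
    (ModuleCat.mono_iff_injective _).1 hmono'
  have hnat : (groupHomology.functor k P 0).map (seq M s).f ≫
      (groupHomology.H0Iso (seq M s).X₂).hom =
      (groupHomology.H0Iso (seq M s).X₁).hom ≫ (Rep.coinvariantsFunctor k P).map (seq M s).f :=
    groupHomology.map_id_comp_H0Iso_hom (seq M s).f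
  have hB : Function.Injective (groupHomology.H0Iso (seq M s).X₂).hom.hom :=
    (groupHomology.H0Iso (seq M s).X₂).toLinearEquiv.injective
  have hA : Function.Surjective (groupHomology.H0Iso (seq M s).X₁).hom.hom :=
    (groupHomology.H0Iso (seq M s).X₁).toLinearEquiv.surjective
  intro a b hab
  obtain ⟨x, rfl⟩ := hA a
  obtain ⟨y, rfl⟩ := hA b
  have hx := congrArg (fun φ => (ModuleCat.Hom.hom φ) x) hnat
  have hy := congrArg (fun φ => (ModuleCat.Hom.hom φ) y) hnat
  simp only [ModuleCat.hom_comp, LinearMap.comp_apply] at hx hy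
  rw [← hx, ← hy] at hab
  rw [hinj_map (hB hab)]

end inj

section coinvL

variable {W : Type*} [AddCommGroup W] [Module k W]

/-- a function with vanishing sum lies in the augmentation part of the induced module -/
lemma mem_ker_of_sum_eq_zero (f : P → W) (hf : ∑ h : P, f h = 0) :
    f ∈ Coinvariants.ker (midRep (Representation.trivial k P W)) := by
  classical
  have h1 : ∀ (h : P) (v : W),
      midRep (Representation.trivial k P W) h (Pi.single 1 v) = Pi.single h v := by
    intro h v
    ext x
    simp only [midRep_apply, Representation.trivial_apply]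
    by_cases hx : x = h
    · subst hx; simp
    · rw [Pi.single_eq_of_ne hx, Pi.single_eq_of_ne]
      intro h2
      apply hx
      rw [inv_mul_eq_one] at h2
      exact h2.symm
  have h3 : ∑ h : P, Pi.single (1 : P) (f h) = (Pi.single 1 (∑ h : P, f h) : P → W) :=
    (map_sum (AddMonoidHom.single (fun _ : P => W) 1) f Finset.univ).symm
  have h2 : f = ∑ h : P, (midRep (Representation.trivial k P W) h (Pi.single 1 (f h)) -
      Pi.single 1 (f h)) := by
    rw [Finset.sum_sub_distrib]
    simp_rw [h1]
    rw [Finset.univ_sum_single, h3, hf, Pi.single_zero, sub_zero]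
  rw [h2]
  exact Submodule.sum_mem _ (fun h _ => Coinvariants.sub_mem_ker h _)

end coinvL

section final

variable (hs : ∀ v, Coinvariants.mk M.ρ (s v) = v) (p : ℕ) [Fact p.Prime] (hP : IsPGroup p P)
  (hp : ∀ x : M.V, p • x = 0) (h : Limits.IsZero (groupHomology M 1))

include hs in
lemma mk_phi (f : P → Coinvariants M.ρ) :
    Coinvariants.mk M.ρ (phi M s f) = ∑ h : P, f h := by
  rw [phi_apply, map_sum]
  exact Finset.sum_congr rfl (fun h _ => by rw [Coinvariants.mk_self_apply, hs])

include hs hP hp h in
lemma ker_phi_eq_bot : LinearMap.ker (phi M s) = ⊥ := by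
  have hsurj := range_phi_eq_top M s hs p hP hp
  have hinj := coinvariants_map_f_injective M s hsurj h
  -- every element of `K` lies in the coinvariants kernel
  have hK : Coinvariants.ker (KRep M s).ρ = ⊤ := by
    rw [eq_top_iff]
    intro x _
    rw [← Coinvariants.mk_eq_zero]
    apply hinj
    rw [map_zero]
    change Coinvariants.map (KRep M s).ρ (LRep M).ρ (seq M s).f.hom
      (Coinvariants.mk (KRep M s).ρ x) = 0
    rw [Coinvariants.map_mk, Coinvariants.mk_eq_zero]
    apply mem_ker_of_sum_eq_zero
    rw [← mk_phi M s hs]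
    have hx : phi M s x.1 = 0 := x.2
    change Coinvariants.mk M.ρ (phi M s x.1) = 0
    rw [hx, map_zero]
  have hpK : ∀ x : (KRep M s).V, p • x = 0 := by
    intro x
    apply Subtype.ext
    funext g
    change p • (x.1 g) = 0
    induction x.1 g using Coinvariants.induction_on with
    | h v => rw [← map_nsmul, hp, map_zero]
  have hsub := subsingleton_of_coinvariantsKer_eq_top p (KRep M s).ρ hP hpK hK
  rw [eq_bot_iff]
  intro x hx
  have : (⟨x, hx⟩ : (KRep M s).V) = 0 := Subsingleton.elim _ _
  rw [Submodule.mem_bot]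
  exact congrArg Subtype.val this

include hs hP hp h in
/-- Generic form: if the projection `M → M_P` has a `k`-linear section, `P` is a `p`-group,
`pM = 0` and `H₁(P, M) = 0`, then `M` is relatively projective. -/
theorem isRelProj_of_section : IsRelProj M.ρ := by
  have hsurj := range_phi_eq_top M s hs p hP hp
  have hinj := ker_phi_eq_bot M s hs p hP hp h
  let e : (P → Coinvariants M.ρ) ≃ₗ[k] M.V :=
    LinearEquiv.ofBijective (phi M s) ⟨LinearMap.ker_eq_bot.1 hinj, LinearMap.range_eq_top.1 hsurj⟩
  have he : ∀ f, e f = phi M s f := fun f => rfl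
  obtain ⟨π, hπ⟩ := isRelProj_midRep (trivV M)
  refine ⟨e.toLinearMap ∘ₗ π ∘ₗ e.symm.toLinearMap, ?_⟩
  apply LinearMap.ext
  intro m
  obtain ⟨f, rfl⟩ := e.surjective m
  simp only [LinearMap.sum_apply, LinearMap.comp_apply, LinearEquiv.coe_coe, LinearMap.id_apply]
  have h1 : ∀ (g : P) (f' : P → Coinvariants M.ρ), M.ρ g (e f') = e (midRep (trivV M) g f') := by
    intro g f'
    rw [he, he, phi_comm]
  have h2 : ∀ g : P, M.ρ g (e (π (e.symm (M.ρ g⁻¹ (e f))))) =
      e (midRep (trivV M) g (π (midRep (trivV M) g⁻¹ f))) := by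
    intro g
    rw [h1 g⁻¹ f, LinearEquiv.symm_apply_apply, h1]
  simp_rw [h2]
  rw [← map_sum]
  congr 1
  have := congrArg (fun φ => φ f) hπ
  simpa using this

end final

end Main

section IntCase

lemma exists_addSection (p : ℕ) [Fact p.Prime] {A B : Type*} [AddCommGroup A] [AddCommGroup B]
    [Module (ZMod p) A] [Module (ZMod p) B] (f : A →+ B) (hf : Function.Surjective f) :
    ∃ g : B →+ A, ∀ b, f (g b) = b := by
  obtain ⟨g, hg⟩ := (f.toZModLinearMap p).exists_rightInverse_of_surjective
    (LinearMap.range_eq_top.2 hf)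
  refine ⟨g.toAddMonoidHom, fun b => ?_⟩
  have := LinearMap.congr_fun hg b
  simpa using this

/-- Generic form over a ring `k` for which additive maps between `k`-modules are automatically
`k`-linear (e.g. `k = ℤ`). -/
theorem isRelProj_of_additive_linear {k : Type} [CommRing k]
    (hk : ∀ {A B : Type} [AddCommGroup A] [AddCommGroup B] [Module k A] [Module k B]
      (g : A →+ B) (c : k) (x : A), g (c • x) = c • g x)
    (p : ℕ) [Fact p.Prime] {P : Type} [Group P] [Fintype P]
    (hP : IsPGroup p P) (M : Rep.{0} k P) (hp : ∀ x : M.V, p • x = 0)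
    (h : Limits.IsZero (groupHomology M 1)) : IsRelProj M.ρ := by
  letI i1 : Module (ZMod p) M.V := AddCommGroup.zmodModule hp
  have hpC : ∀ x : Coinvariants M.ρ, p • x = 0 := by
    intro x
    induction x using Coinvariants.induction_on with
    | h v => rw [← map_nsmul, hp, map_zero]
  letI i2 : Module (ZMod p) (Coinvariants M.ρ) := AddCommGroup.zmodModule hpC
  obtain ⟨g, hg⟩ := exists_addSection p (Coinvariants.mk M.ρ).toAddMonoidHom
    (Coinvariants.mk_surjective _)
  let s : Coinvariants M.ρ →ₗ[k] M.V :=
    { toFun := g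
      map_add' := g.map_add
      map_smul' := fun c x => hk g c x }
  exact isRelProj_of_section M s hg p hP hp h

/-- **(PGroup)** For a finite `p`-group `P` and a `p`-torsion `ℤ[P]`-module `M` with
`H₁(P, M) = 0`, `M` is relatively projective. -/
theorem isRelProj_of_H1_eq_zero (p : ℕ) [Fact p.Prime] {P : Type} [Group P] [Fintype P]
    (hP : IsPGroup p P) (M : Rep.{0} ℤ P) (hp : ∀ x : M.V, p • x = 0)
    (h : Limits.IsZero (groupHomology M 1)) : IsRelProj M.ρ :=
  isRelProj_of_additive_linear (k := ℤ)
    (fun g c x => by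
      have := map_intCast_smul g ℤ ℤ c x
      simpa using this) p hP M hp h

end IntCase

end Fermat.Agent.S55.TateCrit45.PGroup4
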