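import Fermat.Agent.S55.TateCrit45.Shift
import Fermat.Agent.S55.TateCrit45.Nakayama

set_option autoImplicit false
set_option linter.style.haveILetI false
set_option linter.unusedSectionVars false

open CategoryTheory

namespace Fermat.Agent.S55.TateCrit45.PGroup45

section LES

variable {k : Type} [CommRing k] {G : Type} [Group G]

/-- If `H₁(G, X₃) = 0` for a short exact sequence `0 → X₁ → X₂ → X₃ → 0`, the induced map on
coinvariants `(X₁)_G → (X₂)_G` is injective. -/
lemma coinvariants_map_injective_of_H1 {X : ShortComplex (Rep.{0} k G)} (hX : X.ShortExact)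
    (h : Limits.IsZero (groupHomology X.X₃ 1)) :
    Function.Injective (Representation.Coinvariants.map X.X₁.ρ X.X₂.ρ X.f.hom) := by
  have hex := groupHomology.mapShortComplex₁_exact hX (i := 1) (j := 0) rfl
  have hmono : Mono (groupHomology.mapShortComplex₁ hX (i := 1) (j := 0) rfl).g :=
    hex.mono_g (h.eq_of_src _ _)
  have hmono' : Mono (groupHomology.map (MonoidHom.id G) X.f 0) := hmono
  have hnat := groupHomology.map_id_comp_H0Iso_hom X.f
  have hmono2 : Mono ((groupHomology.H0Iso X.X₁).hom ≫ (Rep.coinvariantsFunctor k G).map X.f) := by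
    rw [← hnat]; exact mono_comp _ _
  have hmono3 : Mono ((Rep.coinvariantsFunctor k G).map X.f) := by
    have : (Rep.coinvariantsFunctor k G).map X.f =
        (groupHomology.H0Iso X.X₁).inv ≫
          ((groupHomology.H0Iso X.X₁).hom ≫ (Rep.coinvariantsFunctor k G).map X.f) := by simp
    rw [this]; infer_instance
  exact (ModuleCat.mono_iff_injective _).1 hmono3

end LES

section LinOfAdd

/-- An additive map is `ℤ`-linear for arbitrary `ℤ`-module structures. -/
def linOfAdd {A B : Type*} [AddCommGroup A] [AddCommGroup B] {mA : Module ℤ A} {mB : Module ℤ B}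
    (f : A →+ B) : A →ₗ[ℤ] B :=
  { toFun := f
    map_add' := f.map_add
    map_smul' := fun n x => by
      have e1 : mA = AddCommGroup.toIntModule A := Subsingleton.elim _ _
      have e2 : mB = AddCommGroup.toIntModule B := Subsingleton.elim _ _
      subst e1 e2
      simp }

@[simp] lemma linOfAdd_apply {A B : Type*} [AddCommGroup A] [AddCommGroup B] {mA : Module ℤ A}
    {mB : Module ℤ B} (f : A →+ B) (x : A) : linOfAdd (mA := mA) (mB := mB) f x = f x := rfl

end LinOfAdd

section Main

variable {k : Type} [CommRing k] {P : Type} [Group P] [Fintype P] (M : Rep.{0} k P)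

/-- the coinvariants `M_P` -/
abbrev Cov : Type := Representation.Coinvariants M.ρ

/-- the quotient map `M → M_P` -/
abbrev mkCov : M.V →ₗ[k] Cov M := Representation.Coinvariants.mk M.ρ

/-- the induced module `P → M_P` with `(g f)(h) = f (g⁻¹ h)` -/
abbrev Lρ : Representation k P (P → Cov M) := midRep (Representation.trivial k P (Cov M))

/-- `M → M_P` has a `k`-linear section. -/
def HasSection : Prop := ∃ s : Cov M →ₗ[k] M.V, ∀ v, mkCov M (s v) = v

variable (s : Cov M →ₗ[k] M.V)

/-- `φ f = ∑ h, ρ h (s (f h))` -/
def phi : (P → Cov M) →ₗ[k] M.V :=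
  ∑ h : P, (M.ρ h) ∘ₗ s ∘ₗ (LinearMap.proj h)

lemma phi_apply (f : P → Cov M) : phi M s f = ∑ h : P, M.ρ h (s (f h)) := by
  simp [phi]

lemma phi_comm (g : P) (f : P → Cov M) : phi M s (Lρ M g f) = M.ρ g (phi M s f) := by
  rw [phi_apply, phi_apply, map_sum]
  refine Fintype.sum_equiv (Equiv.mulLeft g⁻¹) _ _ (fun h => ?_)
  simp [← Module.End.mul_apply, ← map_mul]

lemma phi_single [DecidableEq P] (v : Cov M) : phi M s (Pi.single 1 v) = s v := by
  rw [phi_apply, Finset.sum_eq_single 1]
  · simp
  · intro h _ hh; simp [Pi.single_eq_of_ne hh]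
  · intro h1; exact absurd (Finset.mem_univ _) h1

lemma mkCov_phi (hs : ∀ v, mkCov M (s v) = v) (f : P → Cov M) :
    mkCov M (phi M s f) = ∑ h : P, f h := by
  rw [phi_apply, map_sum]
  refine Finset.sum_congr rfl (fun h _ => ?_)
  rw [Representation.Coinvariants.mk_self_apply, hs]

/-- elements of `P → M_P` with zero sum lie in the kernel of the coinvariants map -/
lemma mem_ker_of_sum_eq_zero (f : P → Cov M) (hf : ∑ h : P, f h = 0) :
    f ∈ Representation.Coinvariants.ker (Lρ M) := by
  classical
  have h1 : ∀ (h : P) (v : Cov M), (Pi.single h v : P → Cov M) = Lρ M h (Pi.single 1 v) := by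
    intro h v
    ext x
    simp only [midRep_apply, Representation.trivial_apply]
    by_cases hx : x = h
    · subst hx; simp
    · rw [Pi.single_eq_of_ne hx, Pi.single_eq_of_ne]
      intro h2; exact hx (by rw [inv_mul_eq_one] at h2; exact h2.symm)
  have h2 : f = ∑ h : P, (Lρ M h (Pi.single 1 (f h)) - Pi.single 1 (f h)) := by
    rw [Finset.sum_sub_distrib]
    have h3 : ∑ h : P, (Pi.single 1 (f h) : P → Cov M) = 0 := by
      rw [← Pi.single_zero (1 : P), ← hf]
      exact (map_sum (AddMonoidHom.single (fun _ : P => Cov M) 1) _ _).symm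
    rw [h3, sub_zero]
    conv_lhs => rw [← Finset.univ_sum_single f]
    exact Finset.sum_congr rfl (fun h _ => h1 h (f h))
  rw [h2]
  exact Submodule.sum_mem _ (fun h _ => Representation.Coinvariants.sub_mem_ker h _)

/-- intertwining maps send the coinvariant kernel into the coinvariant kernel -/
lemma map_mem_ker {V W : Type} [AddCommGroup V] [Module k V] [AddCommGroup W] [Module k W]
    (ρ : Representation k P V) (σ : Representation k P W) (T : V →ₗ[k] W)
    (hT : ∀ g v, T (ρ g v) = σ g (T v)) {x : V} (hx : x ∈ Representation.Coinvariants.ker ρ) :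
    T x ∈ Representation.Coinvariants.ker σ := by
  unfold Representation.Coinvariants.ker at hx
  induction hx using Submodule.span_induction with
  | mem y hy =>
    obtain ⟨⟨g, v⟩, rfl⟩ := hy
    simp only [map_sub, hT]
    exact Representation.Coinvariants.sub_mem_ker g _
  | zero => simp
  | add y z _ _ hy hz => rw [map_add]; exact Submodule.add_mem _ hy hz
  | smul c y _ hy => rw [map_smul]; exact Submodule.smul_mem _ c hy

lemma cov_torsion (p : ℕ) (hp : ∀ x : M.V, p • x = 0) (v : Cov M) : p • v = 0 := by
  induction v using Representation.Coinvariants.induction_on with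
  | h x => rw [← map_nsmul, hp, map_zero]

/-- transport of relative projectivity along an equivariant linear equivalence -/
lemma isRelProj_of_equiv {V W : Type} [AddCommGroup V] [Module k V] [AddCommGroup W] [Module k W]
    (ρ : Representation k P V) (σ : Representation k P W) (e : V ≃ₗ[k] W)
    (he : ∀ g v, e (ρ g v) = σ g (e v)) (h : IsRelProj ρ) : IsRelProj σ := by
  obtain ⟨π, hπ⟩ := h
  refine ⟨e.toLinearMap ∘ₗ π ∘ₗ e.symm.toLinearMap, ?_⟩
  apply LinearMap.ext
  intro w
  have h1 := LinearMap.congr_fun hπ (e.symm w)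
  simp only [LinearMap.sum_apply, LinearMap.comp_apply, LinearMap.id_apply] at h1 ⊢
  have h2 : ∀ g w, e.symm (σ g w) = ρ g (e.symm w) := by
    intro g w
    apply e.injective
    rw [he]; simp
  calc ∑ g : P, σ g (e (π (e.symm (σ g⁻¹ w))))
      = ∑ g : P, e (ρ g (π (ρ g⁻¹ (e.symm w)))) := by
        refine Finset.sum_congr rfl (fun g _ => ?_)
        simp [h2, he]
    _ = e (∑ g : P, ρ g (π (ρ g⁻¹ (e.symm w)))) := (map_sum e _ _).symm
    _ = w := by rw [h1]; simp

lemma mkCov_surjective : Function.Surjective (mkCov M) :=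
  Representation.Coinvariants.mk_surjective M.ρ

/-- the abstract Nakayama property used below -/
def NakayamaProp (k : Type) [CommRing k] (P : Type) [Group P] (p : ℕ) : Prop :=
  ∀ (C : Type) [AddCommGroup C] [Module k C] (ρ : Representation k P C),
    (∀ x : C, p • x = 0) → (∀ c : C, c ∈ Representation.Coinvariants.ker ρ) → Subsingleton C

variable (p : ℕ) (hNak : NakayamaProp k P p) (hp : ∀ x : M.V, p • x = 0)
  (hs : ∀ v, mkCov M (s v) = v)

lemma range_phi_le_comap (g : P) :
    LinearMap.range (phi M s) ≤ (LinearMap.range (phi M s)).comap (M.ρ g) := by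
  rintro _ ⟨f, rfl⟩
  exact ⟨Lρ M g f, phi_comm M s g f⟩

lemma ker_phi_le_comap (g : P) :
    LinearMap.ker (phi M s) ≤ (LinearMap.ker (phi M s)).comap (Lρ M g) := by
  intro f hf
  rw [Submodule.mem_comap, LinearMap.mem_ker, phi_comm, LinearMap.mem_ker.1 hf, map_zero]

include hNak hp hs in
lemma phi_surjective : Function.Surjective (phi M s) := by
  classical
  rw [← LinearMap.range_eq_top, ← Submodule.Quotient.subsingleton_iff]
  apply hNak _ (M.ρ.quotient (LinearMap.range (phi M s)) (range_phi_le_comap M s))
  · intro c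
    induction c using Submodule.Quotient.induction_on with
    | H x => rw [← Submodule.Quotient.mk_smul, hp, Submodule.Quotient.mk_zero]
  · intro c
    induction c using Submodule.Quotient.induction_on with
    | H m =>
      have h1 : Submodule.Quotient.mk (p := LinearMap.range (phi M s)) m =
          (LinearMap.range (phi M s)).mkQ (m - s (mkCov M m)) := by
        rw [Submodule.mkQ_apply, Submodule.Quotient.mk_sub]
        have : Submodule.Quotient.mk (p := LinearMap.range (phi M s)) (s (mkCov M m)) = 0 := by
          rw [Submodule.Quotient.mk_eq_zero]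
          exact ⟨Pi.single 1 (mkCov M m), phi_single M s _⟩
        rw [this, sub_zero]
      rw [h1]
      apply map_mem_ker M.ρ _ (LinearMap.range (phi M s)).mkQ (fun g v => rfl)
      rw [← Representation.Coinvariants.mk_eq_zero, map_sub, hs, sub_self]

variable (h1 : Limits.IsZero (groupHomology M 1))

/-- the short complex `0 → ker φ → (P → M_P) → M → 0` -/
noncomputable abbrev phiSeq : ShortComplex (Rep.{0} k P) where
  X₁ := Rep.subrepresentation (Rep.of (Lρ M)) (LinearMap.ker (phi M s)) (ker_phi_le_comap M s)
  X₂ := Rep.of (Lρ M)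
  X₃ := M
  f := Rep.subtype (Rep.of (Lρ M)) _ (ker_phi_le_comap M s)
  g := Rep.ofHom (ρ := Lρ M) (σ := M.ρ) ⟨phi M s, fun g => by
    apply LinearMap.ext; intro f; exact phi_comm M s g f⟩
  zero := by
    ext v
    exact v.2

include hNak hp hs in
lemma shortExact_phiSeq : (phiSeq M s).ShortExact := by
  apply shortExact_of
  · exact Subtype.val_injective
  · exact phi_surjective M s p hNak hp hs
  · intro x hx
    exact ⟨⟨x, hx⟩, rfl⟩

include hNak hp hs h1 in
lemma phi_injective : Function.Injective (phi M s) := by
  rw [← LinearMap.ker_eq_bot, ← Submodule.subsingleton_iff_eq_bot]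
  have hinj := coinvariants_map_injective_of_H1 (shortExact_phiSeq M s p hNak hp hs) h1
  apply hNak _ ((Lρ M).subrepresentation (LinearMap.ker (phi M s)) (ker_phi_le_comap M s))
  · intro x
    apply Subtype.ext
    ext h
    exact cov_torsion M p hp _
  · intro x
    rw [← Representation.Coinvariants.mk_eq_zero]
    apply hinj
    refine Eq.trans ?_ (map_zero _).symm
    change Representation.Coinvariants.mk (Lρ M) (x : P → Cov M) = 0
    rw [Representation.Coinvariants.mk_eq_zero]
    apply mem_ker_of_sum_eq_zero
    rw [← mkCov_phi M s hs, LinearMap.mem_ker.1 x.2, map_zero]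

include hNak hp hs h1 in
/-- the generic form of the `p`-group core -/
theorem isRelProj_of_section : IsRelProj M.ρ := by
  have hbij : Function.Bijective (phi M s) :=
    ⟨phi_injective M s p hNak hp hs h1, phi_surjective M s p hNak hp hs⟩
  exact isRelProj_of_equiv (Lρ M) M.ρ (LinearEquiv.ofBijective (phi M s) hbij)
    (fun g f => phi_comm M s g f) (isRelProj_midRep _)

end Main

section IntCase

variable (p : ℕ) [hp : Fact p.Prime] {P : Type} [Group P] [Fintype P]

lemma nakayamaProp_int (hP : IsPGroup p P) : NakayamaProp ℤ P p :=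
  fun _ _ _ ρ hpC h => subsingleton_of_coinvariantsKer_eq_top p ρ hP hpC h

lemma hasSection_int (M : Rep.{0} ℤ P) (hpM : ∀ x : M.V, p • x = 0) : HasSection M := by
  haveI m1 : Module (ZMod p) M.V := AddCommGroup.zmodModule hpM
  haveI m2 : Module (ZMod p) (Cov M) := AddCommGroup.zmodModule (cov_torsion M p hpM)
  let f : M.V →ₗ[ZMod p] Cov M := AddMonoidHom.toZModLinearMap p (mkCov M).toAddMonoidHom
  have hf : Function.Surjective f := mkCov_surjective M
  obtain ⟨g, hg⟩ := f.exists_rightInverse_of_surjective (LinearMap.range_eq_top.2 hf)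
  refine ⟨linOfAdd g.toAddMonoidHom, fun v => ?_⟩
  exact LinearMap.congr_fun hg v

/-- **The `p`-group core, homological form**: a `p`-torsion module over a finite `p`-group with
`H₁ = 0` is relatively projective (indeed free over `𝔽_p[P]`). -/
theorem isRelProj_of_H1_eq_zero (hP : IsPGroup p P) (M : Rep.{0} ℤ P)
    (hpM : ∀ x : M.V, p • x = 0) (h : Limits.IsZero (groupHomology M 1)) : IsRelProj M.ρ := by
  obtain ⟨s, hs⟩ := hasSection_int p M hpM
  exact isRelProj_of_section M s p (nakayamaProp_int p hP) hpM hs h

end IntCase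

end Fermat.Agent.S55.TateCrit45.PGroup45
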