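import Fermat.Agent.S55.TateCrit45.Shift

/-
helper69 : second seat of leaf 11a2-TATE-CRIT (owner helper45).

Main results (`P` a finite `p`-group, `M : Rep ℤ P` killed by `p`):
* `nakayama` : a `P`-stable subgroup `N` of `C` with `N + I_P C = C` is all of `C`;
* `subsingleton_of_ker_eq_top`, `eq_bot_of_coinvariants`, `subsingleton_of_isZero_H0` :
  trivial coinvariants imply `M = 0`;
* `isRelProj_of_H1_eq_zero` : `H₁(P, M) = 0` implies that `M` is relatively projective
  (indeed `M ≅ Ind (M_P)`).
-/

set_option autoImplicit false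
set_option linter.style.haveILetI false
set_option linter.unusedSectionVars false

open CategoryTheory

namespace Fermat.Agent.S55.TateCrit45.PGroup69

open Representation

section Separation

/-- A nonzero vector of an `𝔽_p`-vector space is detected by an additive character. -/
lemma exists_addHom_ne_zero (p : ℕ) [Fact p.Prime] {V : Type*} [AddCommGroup V]
    [Module (ZMod p) V] (v : V) (hv : v ≠ 0) : ∃ φ : V →+ ZMod p, φ v ≠ 0 := by
  by_contra hcon
  simp only [not_exists, not_not] at hcon
  refine hv ((Module.forall_dual_apply_eq_zero_iff (ZMod p) v).1 fun φ => ?_)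
  exact hcon φ.toAddMonoidHom

/-- Separation by characters: if `z ∉ H` and `p A ≤ H` then some additive map `A → ZMod p`
kills `H` but not `z`. -/
lemma exists_hom_ker_ne (p : ℕ) [Fact p.Prime] {A : Type*} [AddCommGroup A] (H : AddSubgroup A)
    (hH : ∀ y : A, p • y ∈ H) (z : A) (hz : z ∉ H) :
    ∃ f : A →+ ZMod p, (∀ y ∈ H, f y = 0) ∧ f z ≠ 0 := by
  classical
  have hkill : ∀ q : A ⧸ H, p • q = 0 := by
    intro q
    induction q using QuotientAddGroup.induction_on with
    | H y =>
      rw [← QuotientAddGroup.mk_nsmul]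
      exact (QuotientAddGroup.eq_zero_iff _).2 (hH y)
  have hz' : (QuotientAddGroup.mk z : A ⧸ H) ≠ 0 := fun h =>
    hz ((QuotientAddGroup.eq_zero_iff _).1 h)
  obtain ⟨φ, hφ⟩ := @exists_addHom_ne_zero p _ (A ⧸ H) _ (AddCommGroup.zmodModule hkill) _ hz'
  refine ⟨φ.comp (QuotientAddGroup.mk' H), ?_, ?_⟩
  · intro y hy
    have : (QuotientAddGroup.mk y : A ⧸ H) = 0 := (QuotientAddGroup.eq_zero_iff _).2 hy
    simp [this]
  · simpa using hφ

/-- a surjective additive map between groups killed by `p` has an additive section (aux) -/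
lemma exists_rightInverse_aux (p : ℕ) [Fact p.Prime] {A B : Type*} [AddCommGroup A]
    [AddCommGroup B] [Module (ZMod p) A] [Module (ZMod p) B] (f : A →+ B)
    (hf : Function.Surjective f) : ∃ s : B →+ A, ∀ y, f (s y) = y := by
  obtain ⟨g, hg⟩ := (f.toZModLinearMap p).exists_rightInverse_of_surjective
    (LinearMap.range_eq_top.2 hf)
  refine ⟨g.toAddMonoidHom, fun y => ?_⟩
  have := congrArg (fun h : B →ₗ[ZMod p] B => h y) hg
  simpa using this

/-- a surjective additive map between groups killed by `p` has an additive section -/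
lemma exists_rightInverse (p : ℕ) [Fact p.Prime] {A B : Type*} [AddCommGroup A]
    [AddCommGroup B] (hA : ∀ x : A, p • x = 0) (hB : ∀ y : B, p • y = 0) (f : A →+ B)
    (hf : Function.Surjective f) : ∃ s : B →+ A, ∀ y, f (s y) = y :=
  @exists_rightInverse_aux p _ A B _ _ (AddCommGroup.zmodModule hA) (AddCommGroup.zmodModule hB)
    f hf

end Separation

section IntSpan

/-- the `ℤ`-span (for any `ℤ`-module structure) is contained in the additive closure -/
lemma mem_closure_of_mem_span_int {C : Type*} [AddCommGroup C] [inst : Module ℤ C] (S : Set C)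
    {x : C} (hx : x ∈ Submodule.span ℤ S) : x ∈ AddSubgroup.closure S := by
  induction hx using Submodule.span_induction with
  | mem x hx => exact AddSubgroup.subset_closure hx
  | zero => exact (AddSubgroup.closure S).zero_mem
  | add x y _ _ h₁ h₂ => exact (AddSubgroup.closure S).add_mem h₁ h₂
  | smul a x _ h₁ =>
    have h2 := (AddSubgroup.closure S).zsmul_mem h₁ a
    rw [← int_smul_eq_zsmul inst a x] at h2
    exact h2

end IntSpan

section Nakayama

variable {p : ℕ} [Fact p.Prime] {P : Type*} [Group P] [Finite P]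
  {C : Type*} [AddCommGroup C] [Module ℤ C] (ρ : Representation ℤ P C)

/-- the action of `P` on functions `C → ZMod p` : `(g • w) x = w (ρ g⁻¹ x)` -/
def funAct (g : P) (w : C → ZMod p) : C → ZMod p := fun x => w (ρ g⁻¹ x)

omit [Fact p.Prime] [Finite P] in
@[simp] lemma funAct_apply (g : P) (w : C → ZMod p) (x : C) : funAct ρ g w x = w (ρ g⁻¹ x) := rfl

omit [Fact p.Prime] [Finite P] in
lemma funAct_one (w : C → ZMod p) : funAct ρ 1 w = w := by
  ext x; simp

omit [Fact p.Prime] [Finite P] in
lemma funAct_mul (g h : P) (w : C → ZMod p) : funAct ρ (g * h) w = funAct ρ g (funAct ρ h w) := by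
  ext x; simp [mul_inv_rev, map_mul]

/-- `funAct` as a linear map. -/
def funActLin (g : P) : (C → ZMod p) →ₗ[ZMod p] (C → ZMod p) where
  toFun := funAct ρ g
  map_add' w₁ w₂ := by ext x; simp
  map_smul' c w := by ext x; simp

/-- **Nakayama's lemma for `p`-groups** (submodule form): a `P`-stable subgroup `N` of a
`P`-module `C` killed by `p` with `N + I_P C = C` is everything. -/
theorem nakayama (hP : IsPGroup p P) (hp : ∀ x : C, p • x = 0) (N : AddSubgroup C)
    (hN : ∀ (g : P) (x : C), x ∈ N → ρ g x ∈ N)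
    (h : ∀ x : C, ∃ n ∈ N, x - n ∈ Coinvariants.ker ρ) : N = ⊤ := by
  classical
  by_contra hne
  obtain ⟨c, hc⟩ : ∃ c : C, c ∉ N := by
    by_contra! hall
    exact hne (eq_top_iff.2 fun x _ => hall x)
  obtain ⟨f, hfN', hfc⟩ := exists_hom_ker_ne p N (fun y => by rw [hp y]; exact N.zero_mem) c hc
  -- the span of the orbit of `f`
  let orb : Set (C → ZMod p) := Set.range fun g : P => funAct ρ g (f : C → ZMod p)
  let W : Submodule (ZMod p) (C → ZMod p) := Submodule.span (ZMod p) orb
  have horb_fin : orb.Finite := Set.finite_range _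
  haveI : Module.Finite (ZMod p) W := Module.Finite.span_of_finite (ZMod p) horb_fin
  haveI : Finite W := Module.finite_of_finite (ZMod p)
  -- properties of elements of `W`
  have hWadd : ∀ w ∈ W, ∀ x y : C, w (x + y) = w x + w y := by
    intro w hw
    induction hw using Submodule.span_induction with
    | mem w hw =>
      obtain ⟨g, rfl⟩ := hw
      intro x y; simp
    | zero => intro x y; simp
    | add w₁ w₂ _ _ h₁ h₂ => intro x y; simp only [Pi.add_apply, h₁, h₂]; ring
    | smul a w _ h₁ => intro x y; simp only [Pi.smul_apply, h₁, smul_add]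
  have hWN : ∀ w ∈ W, ∀ x ∈ N, w x = 0 := by
    intro w hw
    induction hw using Submodule.span_induction with
    | mem w hw =>
      obtain ⟨g, rfl⟩ := hw
      intro x hx
      simp only [funAct_apply]
      exact hfN' _ (hN _ _ hx)
    | zero => intro x _; rfl
    | add w₁ w₂ _ _ h₁ h₂ => intro x hx; simp [h₁ x hx, h₂ x hx]
    | smul a w _ h₁ => intro x hx; simp [h₁ x hx]
  have hWstab : ∀ (g : P), ∀ w ∈ W, funAct ρ g w ∈ W := by
    intro g w hw
    have : W ≤ W.comap (funActLin ρ g) := by
      apply Submodule.span_le.2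
      rintro _ ⟨h, rfl⟩
      show funAct ρ g (funAct ρ h f) ∈ W
      rw [← funAct_mul]
      exact Submodule.subset_span ⟨g * h, rfl⟩
    exact this hw
  -- the action of `P` on `W`
  letI : MulAction P W :=
    { smul := fun g w => ⟨funAct ρ g w.1, hWstab g w.1 w.2⟩
      one_smul := fun w => Subtype.ext (funAct_one ρ w.1)
      mul_smul := fun g h w => Subtype.ext (funAct_mul ρ g h w.1) }
  have hsmul : ∀ (g : P) (w : W), ((g • w : W) : C → ZMod p) = funAct ρ g w.1 := fun _ _ => rfl
  -- `W` is nontrivial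
  have hfW : (f : C → ZMod p) ∈ W := Submodule.subset_span ⟨1, funAct_one ρ _⟩
  have hf0 : (⟨f, hfW⟩ : W) ≠ 0 := by
    intro h0
    have := congrArg (fun w : W => w.1 c) h0
    exact hfc this
  haveI : Nontrivial W := ⟨⟨_, _, hf0⟩⟩
  -- counting
  have hcardW : p ∣ Nat.card W := by
    have hfr : 0 < Module.finrank (ZMod p) W := Module.finrank_pos
    have h1 : Nat.card W = p ^ Module.finrank (ZMod p) W := by
      rw [Module.natCard_eq_pow_finrank (K := ZMod p) (V := W), Nat.card_eq_fintype_card, ZMod.card]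
    rw [h1]
    exact dvd_pow_self p hfr.ne'
  have hfix := hP.card_modEq_card_fixedPoints W
  have hcardF : p ∣ Nat.card (MulAction.fixedPoints P W) :=
    (Nat.modEq_zero_iff_dvd.1 ((hfix.symm).trans (Nat.modEq_zero_iff_dvd.2 hcardW)))
  -- a nonzero fixed point
  have h0fix : (0 : W) ∈ MulAction.fixedPoints P W := by
    intro g
    apply Subtype.ext
    rw [hsmul]
    ext x; simp
  haveI : Finite (MulAction.fixedPoints P W) := Subtype.finite
  obtain ⟨w, hwfix, hw0⟩ : ∃ w : W, w ∈ MulAction.fixedPoints P W ∧ w ≠ 0 := by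
    by_contra! hall
    have hsub : Subsingleton (MulAction.fixedPoints P W) :=
      ⟨fun a b => Subtype.ext ((hall a.1 a.2).trans (hall b.1 b.2).symm)⟩
    have hle : Nat.card (MulAction.fixedPoints P W) ≤ 1 := Finite.card_le_one_iff_subsingleton.2 hsub
    have hpos : 0 < Nat.card (MulAction.fixedPoints P W) :=
      Nat.card_pos_iff.2 ⟨⟨⟨0, h0fix⟩⟩, inferInstance⟩
    have hp2 := (Fact.out : p.Prime).two_le
    have := Nat.le_of_dvd hpos hcardF
    omega
  -- `w` is invariant hence kills the coinvariant kernel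
  have hwinv : ∀ (g : P) (x : C), w.1 (ρ g x) = w.1 x := by
    intro g x
    have := congrArg (fun v : W => v.1 (ρ g x)) (hwfix g)
    simp only [hsmul, funAct_apply] at this
    rw [← this, ← Module.End.mul_apply, ← map_mul, inv_mul_cancel, map_one, Module.End.one_apply]
  have hwzero : w.1 0 = 0 := by
    have h2 := hWadd w.1 w.2 0 0
    rw [add_zero] at h2
    exact left_eq_add.1 h2
  have hwneg : ∀ x : C, w.1 (-x) = -w.1 x := by
    intro x
    have h1 := hWadd w.1 w.2 x (-x)
    rw [add_neg_cancel, hwzero] at h1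
    exact eq_neg_of_add_eq_zero_right h1.symm
  have hcl : ∀ x ∈ AddSubgroup.closure (Set.range fun gv : P × C => ρ gv.1 gv.2 - gv.2),
      w.1 x = 0 := by
    intro x hx
    induction hx using AddSubgroup.closure_induction with
    | mem x hx =>
      obtain ⟨⟨g, y⟩, rfl⟩ := hx
      simp only
      rw [sub_eq_add_neg, hWadd w.1 w.2, hwneg, hwinv, add_neg_cancel]
    | zero => exact hwzero
    | add x y _ _ h₁ h₂ => rw [hWadd w.1 w.2, h₁, h₂, add_zero]
    | neg x _ h₁ => rw [hwneg, h₁, neg_zero]
  have hwker : ∀ x ∈ Coinvariants.ker ρ, w.1 x = 0 := fun x hx =>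
    hcl x (mem_closure_of_mem_span_int _ hx)
  apply hw0
  apply Subtype.ext
  ext x
  obtain ⟨n, hn, hxn⟩ := h x
  have : x = n + (x - n) := by abel
  rw [this, hWadd w.1 w.2, hWN w.1 w.2 n hn, hwker _ hxn]
  simp

/-- **Nakayama** : a `P`-module killed by `p` with trivial coinvariants is trivial. -/
theorem subsingleton_of_ker_eq_top (hP : IsPGroup p P) (hp : ∀ x : C, p • x = 0)
    (h : Coinvariants.ker ρ = ⊤) : Subsingleton C := by
  have key := nakayama ρ hP hp ⊥
    (fun g x hx => by rw [AddSubgroup.mem_bot] at hx ⊢; rw [hx, map_zero])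
    (fun x => ⟨0, AddSubgroup.zero_mem _, by rw [sub_zero, h]; trivial⟩)
  refine ⟨fun x y => ?_⟩
  have hx : x ∈ (⊥ : AddSubgroup C) := by rw [key]; trivial
  have hy : y ∈ (⊥ : AddSubgroup C) := by rw [key]; trivial
  rw [AddSubgroup.mem_bot] at hx hy
  rw [hx, hy]

end Nakayama


section Phi

attribute [-instance] AddCommGroup.toIntModule

variable {P : Type} [Group P] [Fintype P] {V W : Type} [AddCommGroup V] [AddCommGroup W]
  [Module ℤ V] [Module ℤ W] (ρ : Representation ℤ P W) (s : V →ₗ[ℤ] W)

/-- the trivial-coefficient middle representation on `P → V` -/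
abbrev Ltriv (P : Type) [Group P] (V : Type) [AddCommGroup V] [Module ℤ V] :
    Representation ℤ P (P → V) :=
  midRep (Representation.trivial ℤ P V)

omit [Fintype P] in
lemma Ltriv_apply (g : P) (f : P → V) (h : P) : Ltriv P V g f h = f (g⁻¹ * h) := by
  simp [Ltriv]

/-- `φ f = ∑ h, ρ h (s (f h))` -/
def phi : (P → V) →ₗ[ℤ] W :=
  ∑ h : P, (ρ h) ∘ₗ s ∘ₗ (LinearMap.proj h : (P → V) →ₗ[ℤ] V)

lemma phi_apply (f : P → V) : phi ρ s f = ∑ h : P, ρ h (s (f h)) := by
  simp [phi]

lemma phi_comm (g : P) (f : P → V) : phi ρ s (Ltriv P V g f) = ρ g (phi ρ s f) := by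
  rw [phi_apply, phi_apply, map_sum]
  refine Fintype.sum_equiv (Equiv.mulLeft g⁻¹) _ _ (fun h => ?_)
  rw [Ltriv_apply, Equiv.coe_mulLeft, ← Module.End.mul_apply, ← map_mul, mul_inv_cancel_left]

lemma phi_single [DecidableEq P] (v : V) : phi ρ s (Pi.single 1 v) = s v := by
  rw [phi_apply, Finset.sum_eq_single 1]
  · simp
  · intro h _ hh
    rw [Pi.single_eq_of_ne hh, map_zero, map_zero]
  · intro h; exact absurd (Finset.mem_univ _) h

lemma Ltriv_single [DecidableEq P] (g : P) (v : V) :
    Ltriv P V g (Pi.single 1 v) = Pi.single g v := by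
  ext h
  rw [Ltriv_apply]
  by_cases hg : h = g
  · subst hg; simp
  · rw [Pi.single_eq_of_ne hg, Pi.single_eq_of_ne]
    intro h1; apply hg; rw [inv_mul_eq_one] at h1; exact h1.symm

/-- functions with vanishing total sum lie in the augmentation part of `P → V` -/
lemma mem_ker_Ltriv (f : P → V) (hf : ∑ h, f h = 0) : f ∈ Coinvariants.ker (Ltriv P V) := by
  classical
  rw [← Coinvariants.mk_eq_zero]
  have h1 : f = ∑ h : P, Ltriv P V h (Pi.single 1 (f h)) := by
    simp only [Ltriv_single]
    exact (Finset.univ_sum_single f).symm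
  have h2 : ∀ v : V, Coinvariants.mk (Ltriv P V) (Pi.single 1 v) =
      ((Coinvariants.mk (Ltriv P V)) ∘ₗ (LinearMap.single ℤ (fun _ : P => V) 1)) v := fun v => rfl
  rw [h1, map_sum]
  simp only [Coinvariants.mk_self_apply, h2]
  rw [← map_sum, hf, map_zero]

end Phi


section Surj

attribute [-instance] AddCommGroup.toIntModule

variable {p : ℕ} [Fact p.Prime] {P : Type} [Group P] [Fintype P] {W : Type} [AddCommGroup W]
  [Module ℤ W] (ρ : Representation ℤ P W) (s : Coinvariants ρ →ₗ[ℤ] W)

/-- `φ` is surjective (Nakayama) when `s` is a section of the coinvariants map. -/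
lemma phi_surjective (hP : IsPGroup p P) (hp : ∀ x : W, p • x = 0)
    (hs : ∀ v, Coinvariants.mk ρ (s v) = v) : Function.Surjective (phi ρ s) := by
  classical
  have key := nakayama ρ hP hp (LinearMap.range (phi ρ s)).toAddSubgroup ?_ ?_
  · intro x
    have hx : x ∈ (LinearMap.range (phi ρ s)).toAddSubgroup := by rw [key]; trivial
    exact hx
  · rintro g _ ⟨f, rfl⟩
    exact ⟨Ltriv P (Coinvariants ρ) g f, phi_comm ρ s g f⟩
  · intro x
    refine ⟨s (Coinvariants.mk ρ x), ⟨Pi.single 1 (Coinvariants.mk ρ x), phi_single ρ s _⟩, ?_⟩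
    rw [← Coinvariants.mk_eq_zero, map_sub, hs, sub_self]

end Surj

section LES

variable {k G : Type} [CommRing k] [Group G] {X : ShortComplex (Rep.{0} k G)}

lemma mono_map0 (hX : X.ShortExact) (h : Limits.IsZero (groupHomology X.X₃ 1)) :
    Mono (groupHomology.map (MonoidHom.id G) X.f 0) := by
  have hex := groupHomology.mapShortComplex₁_exact hX (i := 1) (j := 0) rfl
  exact hex.mono_g (h.eq_of_src _ _)

/-- if `H₁(X₃) = 0` then `(X₁)_G → (X₂)_G` is injective -/
lemma mono_coinv (hX : X.ShortExact) (h : Limits.IsZero (groupHomology X.X₃ 1)) :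
    Mono ((Rep.coinvariantsFunctor k G).map X.f) := by
  have hmono := mono_map0 hX h
  have e := groupHomology.map_id_comp_H0Iso_hom X.f
  have e2 : (Rep.coinvariantsFunctor k G).map X.f =
      (groupHomology.H0Iso _).inv ≫ groupHomology.map (MonoidHom.id G) X.f 0 ≫
        (groupHomology.H0Iso _).hom := by
    rw [e, Iso.inv_hom_id_assoc]
  rw [e2]
  infer_instance

end LES

section Inj

attribute [-instance] AddCommGroup.toIntModule

variable {p : ℕ} [Fact p.Prime] {P : Type} [Group P] [Fintype P] (M : Rep.{0} ℤ P)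
  (s : Coinvariants M.ρ →ₗ[ℤ] M.V)

/-- kernel of `φ` -/
def Kφ : Submodule ℤ (P → Coinvariants M.ρ) := LinearMap.ker (phi M.ρ s)

lemma Kφ_stable (g : P) : ∀ f ∈ Kφ M s, Ltriv P (Coinvariants M.ρ) g f ∈ Kφ M s := by
  intro f hf
  rw [Kφ, LinearMap.mem_ker] at hf ⊢
  rw [phi_comm, hf, map_zero]

/-- the representation on the kernel of `φ` -/
def ρK : Representation ℤ P (Kφ M s) where
  toFun g := (Ltriv P (Coinvariants M.ρ) g).restrict (Kφ_stable M s g)
  map_one' := by ext; simp
  map_mul' x y := by ext; simp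

lemma ρK_coe (g : P) (x : Kφ M s) :
    ((ρK M s g x : Kφ M s) : P → Coinvariants M.ρ) = Ltriv P (Coinvariants M.ρ) g x.1 := rfl

/-- the inclusion `ker φ → (P → V)` as an intertwining map -/
def inclI : IntertwiningMap (ρK M s) (Ltriv P (Coinvariants M.ρ)) :=
  ⟨(Kφ M s).subtype, fun g => by
    apply LinearMap.ext; intro x; rfl⟩

/-- `φ` as an intertwining map -/
def phiI : IntertwiningMap (Ltriv P (Coinvariants M.ρ)) M.ρ :=
  ⟨phi M.ρ s, fun g => by
    apply LinearMap.ext; intro f; exact phi_comm M.ρ s g f⟩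

/-- the short complex `0 → ker φ → (P → V) → M → 0` -/
noncomputable def seq : ShortComplex (Rep.{0} ℤ P) :=
  ShortComplex.mk (Rep.ofHom (inclI M s)) (Rep.ofHom (phiI M s))
    (by
      ext x
      exact x.2)

lemma seq_shortExact (hP : IsPGroup p P) (hp : ∀ x : M.V, p • x = 0)
    (hs : ∀ v, Coinvariants.mk M.ρ (s v) = v) : (seq M s).ShortExact := by
  apply shortExact_of
  · intro x y hxy
    exact Subtype.ext hxy
  · exact phi_surjective M.ρ s hP hp hs
  · intro x hx
    exact ⟨⟨x, hx⟩, rfl⟩

lemma coinv_map_injective (hS : (seq M s).ShortExact) (h : Limits.IsZero (groupHomology M 1)) :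
    Function.Injective (Coinvariants.map (ρK M s) (Ltriv P (Coinvariants M.ρ))
      (inclI M s)) := by
  have h0 : Limits.IsZero (groupHomology (seq M s).X₃ 1) := h
  have hmono2 : Mono ((Rep.coinvariantsFunctor ℤ P).map (seq M s).f) := mono_coinv hS h0
  exact (ModuleCat.mono_iff_injective _).1 hmono2

lemma coinv_killed (hp : ∀ x : M.V, p • x = 0) (v : Coinvariants M.ρ) : p • v = 0 := by
  induction v using Coinvariants.induction_on with
  | h x => rw [← map_nsmul, hp, map_zero]

lemma mk_phi (hs : ∀ v, Coinvariants.mk M.ρ (s v) = v) (f : P → Coinvariants M.ρ) :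
    Coinvariants.mk M.ρ (phi M.ρ s f) = ∑ h, f h := by
  rw [phi_apply, map_sum]
  simp only [Coinvariants.mk_self_apply, hs]

/-- `φ` is injective when `H₁(P, M) = 0` -/
lemma phi_injective (hP : IsPGroup p P) (hp : ∀ x : M.V, p • x = 0)
    (hs : ∀ v, Coinvariants.mk M.ρ (s v) = v) (h : Limits.IsZero (groupHomology M 1)) :
    Function.Injective (phi M.ρ s) := by
  classical
  have hS := seq_shortExact M s hP hp hs
  have hinj := coinv_map_injective M s hS h
  have hK : ∀ x : Kφ M s, x ∈ Coinvariants.ker (ρK M s) := by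
    intro x
    rw [← Coinvariants.mk_eq_zero]
    apply hinj
    rw [map_zero, Coinvariants.map_mk, Coinvariants.mk_eq_zero]
    show x.1 ∈ _
    apply mem_ker_Ltriv
    have hx : phi M.ρ s x.1 = 0 := x.2
    rw [← mk_phi M s hs, hx, map_zero]
  have hpK : ∀ x : Kφ M s, p • x = 0 := by
    intro x
    apply Subtype.ext
    ext h
    simp only [Submodule.coe_smul_of_tower, Pi.smul_apply, Submodule.coe_zero, Pi.zero_apply]
    exact coinv_killed M hp _
  have key := nakayama (ρK M s) hP hpK ⊥
    (fun g x hx => by rw [AddSubgroup.mem_bot] at hx ⊢; rw [hx, map_zero])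
    (fun x => ⟨0, AddSubgroup.zero_mem _, by rw [sub_zero]; exact hK x⟩)
  rw [injective_iff_map_eq_zero]
  intro f hf
  have hmem : (⟨f, hf⟩ : Kφ M s) ∈ (⊥ : AddSubgroup (Kφ M s)) := by rw [key]; trivial
  rw [AddSubgroup.mem_bot] at hmem
  exact congrArg Subtype.val hmem

end Inj

section Transport

variable {k H V W : Type*} [CommSemiring k] [Group H] [Fintype H] [AddCommGroup V]
  [AddCommGroup W] [Module k V] [Module k W]

/-- relative projectivity is invariant under equivariant linear equivalences -/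
lemma isRelProj_of_equiv (ρ : Representation k H V) (σ : Representation k H W) (e : V ≃ₗ[k] W)
    (he : ∀ g v, e (ρ g v) = σ g (e v)) (h : IsRelProj ρ) : IsRelProj σ := by
  obtain ⟨π, hπ⟩ := h
  have hsymm : ∀ g w, e.symm (σ g w) = ρ g (e.symm w) := by
    intro g w
    apply e.injective
    rw [he, LinearEquiv.apply_symm_apply, LinearEquiv.apply_symm_apply]
  refine ⟨e.toLinearMap ∘ₗ π ∘ₗ e.symm.toLinearMap, ?_⟩
  apply LinearMap.ext
  intro w
  have h1 := congrArg (fun f : V →ₗ[k] V => e (f (e.symm w))) hπ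
  simp only [LinearMap.sum_apply, LinearMap.comp_apply, LinearMap.id_apply, map_sum,
    LinearEquiv.apply_symm_apply] at h1
  simp only [LinearMap.sum_apply, LinearMap.comp_apply, LinearEquiv.coe_coe, LinearMap.id_apply]
  refine Eq.trans (Finset.sum_congr rfl fun g _ => ?_) h1
  rw [hsymm, he]

end Transport

section Section

attribute [-instance] AddCommGroup.toIntModule

/-- a `ℤ`-linear section of the coinvariants projection for a module killed by `p` -/
lemma exists_section (p : ℕ) [Fact p.Prime] {P : Type} [Group P] (M : Rep.{0} ℤ P)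
    (hp : ∀ x : M.V, p • x = 0) :
    ∃ s : Coinvariants M.ρ →ₗ[ℤ] M.V, ∀ v, Coinvariants.mk M.ρ (s v) = v := by
  have hpV : ∀ v : Coinvariants M.ρ, p • v = 0 := by
    intro v
    induction v using Coinvariants.induction_on with
    | h x => rw [← map_nsmul, hp, map_zero]
  obtain ⟨s, hs⟩ := exists_rightInverse p hp hpV (Coinvariants.mk M.ρ).toAddMonoidHom
    (Coinvariants.mk_surjective M.ρ)
  refine ⟨{ toFun := s, map_add' := s.map_add, map_smul' := fun c x => ?_ }, hs⟩
  have := map_intCast_smul s ℤ ℤ c x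
  simpa using this

end Section

section Main

attribute [-instance] AddCommGroup.toIntModule

/-- **Nakayama** : a `P`-module killed by `p` with trivial coinvariants is trivial. -/
theorem eq_bot_of_coinvariants (p : ℕ) [Fact p.Prime] {P : Type} [Group P] [Fintype P]
    (hP : IsPGroup p P) (M : Rep.{0} ℤ P) (hp : ∀ x : M.V, p • x = 0)
    (h : Representation.Coinvariants.ker M.ρ = ⊤) : Subsingleton M.V :=
  subsingleton_of_ker_eq_top M.ρ hP hp h

/-- **Nakayama**, homological form: a `P`-module killed by `p` with `H₀(P, M) = 0` is trivial.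
(This statement elaborates without any care about the `ℤ`-module instance.) -/
theorem subsingleton_of_isZero_H0 (p : ℕ) [Fact p.Prime] {P : Type} [Group P] [Fintype P]
    (hP : IsPGroup p P) (M : Rep.{0} ℤ P) (hp : ∀ x : M.V, p • x = 0)
    (h : Limits.IsZero (groupHomology M 0)) : Subsingleton M.V := by
  have h1 : Limits.IsZero ((Rep.coinvariantsFunctor ℤ P).obj M) :=
    h.of_iso (groupHomology.H0Iso M).symm
  haveI hsub : Subsingleton (Coinvariants M.ρ) := ModuleCat.subsingleton_of_isZero h1
  apply eq_bot_of_coinvariants p hP M hp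
  rw [eq_top_iff]
  intro x _
  rw [← Coinvariants.mk_eq_zero]
  exact Subsingleton.elim _ _

/-- **Tate's criterion, key step**: a `P`-module killed by `p` with `H₁(P, M) = 0` is
relatively projective (indeed induced from its coinvariants). -/
theorem isRelProj_of_H1_eq_zero (p : ℕ) [Fact p.Prime] {P : Type} [Group P] [Fintype P]
    (hP : IsPGroup p P) (M : Rep.{0} ℤ P) (hp : ∀ x : M.V, p • x = 0)
    (h : Limits.IsZero (groupHomology M 1)) : IsRelProj M.ρ := by
  obtain ⟨s, hs⟩ := exists_section p M hp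
  have hinj := phi_injective M s hP hp hs h
  have hsurj := phi_surjective M.ρ s hP hp hs
  exact isRelProj_of_equiv (Ltriv P (Coinvariants M.ρ)) M.ρ
    (LinearEquiv.ofBijective (phi M.ρ s) ⟨hinj, hsurj⟩)
    (fun g f => phi_comm M.ρ s g f)
    (isRelProj_midRep (Representation.trivial ℤ P (Coinvariants M.ρ)))

end Main

end Fermat.Agent.S55.TateCrit45.PGroup69
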