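import Fermat.Agent.S55.TateCrit45.Basic

set_option autoImplicit false
set_option linter.style.haveILetI false

open CategoryTheory

namespace Fermat.Agent.S55.TateCrit45

section Transversal

variable {G : Type*} [Group G]

/-- `(G ⧸ H) × H ≃ G`, `(q, h) ↦ q.out * h`. -/
noncomputable def prodEquiv (H : Subgroup G) : (G ⧸ H) × H ≃ G where
  toFun x := x.1.out * x.2
  invFun g := ((g : G ⧸ H), ⟨((g : G ⧸ H)).out⁻¹ * g, by
      rw [← QuotientGroup.eq]; exact QuotientGroup.out_eq' _⟩)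
  left_inv := by
    rintro ⟨q, h⟩
    have h1 : ((q.out * (h : G) : G) : G ⧸ H) = q := by
      rw [QuotientGroup.mk_mul_of_mem _ h.2, QuotientGroup.out_eq']
    ext
    · simp [h1]
    · simp [h1]
  right_inv g := by simp

@[simp] lemma prodEquiv_apply (H : Subgroup G) (x : (G ⧸ H) × H) :
    prodEquiv H x = x.1.out * x.2 := rfl

end Transversal

section RelProj

variable {k : Type*} [CommSemiring k] {G : Type*} [Group G] {V : Type*} [AddCommGroup V]
  [Module k V] (ρ : Representation k G V)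

lemma isRelProj_congr_fintype (i₁ i₂ : Fintype G)
    (h : @IsRelProj k G V _ _ i₁ _ _ ρ) : @IsRelProj k G V _ _ i₂ _ _ ρ := by
  have : i₁ = i₂ := Subsingleton.elim _ _
  subst this; exact h

/-- Relative projectivity passes to subgroups. -/
lemma IsRelProj.comp_subtype [Fintype G] (h : IsRelProj ρ) (H : Subgroup G) [Fintype H] :
    IsRelProj (ρ.comp H.subtype : Representation k H V) := by
  classical
  obtain ⟨π, hπ⟩ := h
  letI : Fintype (G ⧸ H) := Fintype.ofFinite _
  refine ⟨∑ q : G ⧸ H, ρ (q.out)⁻¹ ∘ₗ π ∘ₗ ρ q.out, ?_⟩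
  rw [← hπ]
  ext v
  simp only [LinearMap.sum_apply, LinearMap.comp_apply, map_sum, MonoidHom.coe_comp,
    Subgroup.coe_subtype, Function.comp_apply]
  -- reindex the right hand side
  have e1 : (∑ g : G, ρ g (π (ρ g⁻¹ v))) = ∑ g : G, ρ g⁻¹ (π (ρ g v)) := by
    refine Fintype.sum_equiv (Equiv.inv G) _ _ (fun g => ?_)
    simp
  have e2 : (∑ g : G, ρ g⁻¹ (π (ρ g v))) =
      ∑ x : (G ⧸ H) × H, ρ (prodEquiv H x)⁻¹ (π (ρ (prodEquiv H x) v)) :=
    (Fintype.sum_equiv (prodEquiv H) (fun x => ρ (prodEquiv H x)⁻¹ (π (ρ (prodEquiv H x) v)))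
      (fun g => ρ g⁻¹ (π (ρ g v))) (fun x => rfl)).symm
  rw [e1, e2, Fintype.sum_prod_type, Finset.sum_comm]
  refine Finset.sum_congr rfl (fun q _ => ?_)
  apply Fintype.sum_equiv (Equiv.inv H)
  intro h
  simp [Module.End.mul_apply]

end RelProj

end Fermat.Agent.S55.TateCrit45
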