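import Fermat.Agent.S55.TateCrit45.RelProj

set_option autoImplicit false
set_option linter.style.haveILetI false

namespace Fermat.Agent.S55.TateCrit45

variable {k : Type*} [CommSemiring k] {G : Type*} [Group G] {V : Type*} [AddCommGroup V]
  [Module k V] (ρ : Representation k G V)

/-- Relative projectivity is transported along a group isomorphism. -/
lemma IsRelProj.of_mulEquiv {H₁ H₂ : Type*} [Group H₁] [Group H₂] [Fintype H₁] [Fintype H₂]
    (e : H₁ ≃* H₂) (ρ₁ : Representation k H₁ V) (ρ₂ : Representation k H₂ V)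
    (he : ∀ x, ρ₂ (e x) = ρ₁ x) (h : IsRelProj ρ₁) : IsRelProj ρ₂ := by
  obtain ⟨π, hπ⟩ := h
  refine ⟨π, ?_⟩
  rw [← hπ]
  symm
  apply Fintype.sum_equiv e.toEquiv
  intro x
  simp only [MulEquiv.toEquiv_eq_coe, EquivLike.coe_coe, ← map_inv, he]

/-- Relative projectivity on a subgroup `P` of `G` passes to smaller subgroups `Q ≤ P`. -/
lemma IsRelProj.of_le {P Q : Subgroup G} (hQP : Q ≤ P) [Fintype P] [Fintype Q]
    (h : IsRelProj (ρ.comp P.subtype : Representation k P V)) :
    IsRelProj (ρ.comp Q.subtype : Representation k Q V) := by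
  letI : Fintype (Q.subgroupOf P) := Fintype.ofFinite _
  have h1 := h.comp_subtype (ρ.comp P.subtype : Representation k P V) (Q.subgroupOf P)
  exact IsRelProj.of_mulEquiv (Subgroup.subgroupOfEquivOfLe hQP) _ _ (fun x => rfl) h1

end Fermat.Agent.S55.TateCrit45
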