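import Fermat.Agent.S55.TateCrit45.Shift

set_option autoImplicit false
set_option linter.style.haveILetI false
set_option linter.unusedSectionVars false

open CategoryTheory groupCohomology

namespace Fermat.Agent.S55.TateCrit45

section DegreeOne

variable {k : Type} [CommRing k] {H : Type} [Group H] (A : Rep.{0} k H)

lemma mem_coboundaries₁_iff' (f : H → A.V) :
    f ∈ coboundaries₁ A ↔ ∃ x : A.V, ∀ g : H, A.ρ g x - x = f g := by
  constructor
  · rintro ⟨x, rfl⟩
    exact ⟨x, fun g => rfl⟩
  · rintro ⟨x, hx⟩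
    exact ⟨x, funext hx⟩

variable [Finite H]

/-- Corestriction-restriction in degree one, on cocycles: if the restriction of a cocycle `f`
to `Q` is a coboundary then `[H : Q] • f` is a coboundary. -/
theorem index_smul_mem_coboundaries₁ (Q : Subgroup H) (f : cocycles₁ A)
    (hf : ∃ b : A.V, ∀ h : Q, f (h : H) = A.ρ (h : H) b - b) :
    (Q.index • (f : H → A.V)) ∈ coboundaries₁ A := by
  classical
  obtain ⟨b, hb⟩ := hf
  have hcoc : ∀ g h : H, f (g * h) = A.ρ g (f h) + f g := (mem_cocycles₁_iff _).1 f.2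
  -- the modified cocycle
  set f' : H → A.V := fun g => f g - (A.ρ g b - b) with hf'
  have hcoc' : ∀ g h : H, f' (g * h) = A.ρ g (f' h) + f' g := by
    intro g h
    simp only [hf', hcoc, map_mul, Module.End.mul_apply, map_sub]
    abel
  have hQ : ∀ h : H, h ∈ Q → f' h = 0 := by
    intro h hh
    simp only [hf']
    rw [hb ⟨h, hh⟩, sub_self]
  have hconst : ∀ g h : H, h ∈ Q → f' (g * h) = f' g := by
    intro g h hh
    rw [hcoc', hQ h hh, map_zero, zero_add]
  -- descend to the quotient
  let F : H ⧸ Q → A.V := Quotient.lift f' (by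
    intro x y hxy
    have hxy' : x⁻¹ * y ∈ Q := QuotientGroup.leftRel_apply.mp hxy
    have := hconst x (x⁻¹ * y) hxy'
    rw [mul_inv_cancel_left] at this
    exact this.symm)
  have hF : ∀ x : H, F (x : H ⧸ Q) = f' x := fun x => rfl
  letI : Fintype (H ⧸ Q) := Fintype.ofFinite _
  have hsum : ∀ g : H, ∑ t : H ⧸ Q, F (g • t) = ∑ t : H ⧸ Q, F t := by
    intro g
    exact Fintype.sum_equiv (MulAction.toPerm g) _ _ (fun t => rfl)
  have hstep : ∀ (g : H) (t : H ⧸ Q), F (g • t) = A.ρ g (F t) + f' g := by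
    intro g t
    induction t using QuotientGroup.induction_on with
    | H x =>
      rw [show (g • (x : H ⧸ Q)) = ((g * x : H) : H ⧸ Q) from rfl, hF, hF, hcoc']
  have hidx : Q.index = Fintype.card (H ⧸ Q) := by
    rw [Subgroup.index_eq_card, Nat.card_eq_fintype_card]
  rw [mem_coboundaries₁_iff']
  refine ⟨-(∑ t : H ⧸ Q, F t) + Q.index • b, fun g => ?_⟩
  have h1 := hsum g
  simp only [hstep, Finset.sum_add_distrib, Finset.sum_const, Finset.card_univ, ← map_sum] at h1
  have h2 : Q.index • f' g = (∑ t : H ⧸ Q, F t) - A.ρ g (∑ t : H ⧸ Q, F t) := by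
    rw [hidx]
    exact eq_sub_of_add_eq' h1
  have h3 : f g = f' g + (A.ρ g b - b) := by simp [hf']
  simp only [Pi.smul_apply, h3, smul_add, h2, map_add, map_neg, map_nsmul, smul_sub]
  abel

/-- `|H|` kills `H¹(H, A)`. -/
theorem card_nsmul_H1_eq_zero (x : groupCohomology A 1) : Nat.card H • x = 0 := by
  induction x using H1_induction_on with
  | h f =>
    have h1 := index_smul_mem_coboundaries₁ A ⊥ f
      ⟨0, fun h => by
        have : (h : H) = 1 := Subgroup.mem_bot.1 h.2
        simp [this]⟩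
    rw [Subgroup.index_bot] at h1
    rw [← map_nsmul, H1π_eq_zero_iff]
    exact h1

/-- Sylow detection in degree one (cocycle form). -/
theorem isZero_H1_of_forall_prime
    (h : ∀ (p : ℕ), p.Prime → ∃ Q : Subgroup H, ¬ p ∣ Q.index ∧
      ∀ f : cocycles₁ A, ∃ b : A.V, ∀ x : Q, f (x : H) = A.ρ (x : H) b - b) :
    Limits.IsZero (groupCohomology A 1) := by
  rw [ModuleCat.isZero_iff_subsingleton]
  refine ⟨fun x y => ?_⟩
  suffices hz : ∀ z : groupCohomology A 1, z = 0 by rw [hz x, hz y]
  intro z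
  induction z using H1_induction_on with
  | h f =>
    by_contra hne
    have hord : addOrderOf (H1π A f) ≠ 1 := by
      rw [Ne, AddMonoid.addOrderOf_eq_one_iff]; exact hne
    obtain ⟨p, hp, hpd⟩ := Nat.exists_prime_and_dvd hord
    obtain ⟨Q, hQ, hQf⟩ := h p hp
    have h1 := index_smul_mem_coboundaries₁ A Q f (hQf f)
    have h2 : Q.index • H1π A f = 0 := by
      rw [← map_nsmul, H1π_eq_zero_iff]; exact h1
    exact hQ (hpd.trans (addOrderOf_dvd_of_nsmul_eq_zero h2))

end DegreeOne

section Tate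

variable {k : Type} [CommRing k] {G : Type} [Group G] [Fintype G] (A : Rep.{0} k G)

/-- `Ĥⁿ(H, A) ≅ Hⁿ(H, A)` for `n ≥ 1`. -/
noncomputable def tateSubIsoGroupCohomology (H : Subgroup G) (n : ℕ) [NeZero n] :
    tateSub A H n ≅ groupCohomology (Rep.res H.subtype A) n :=
  letI : Fintype H := Fintype.ofFinite H
  (TateCohomology.isoGroupCohomology n).app (Rep.res H.subtype A)

lemma isZero_tateSub_one_iff (H : Subgroup G) :
    Limits.IsZero (tateSub A H 1) ↔ Limits.IsZero (groupCohomology (Rep.res H.subtype A) 1) :=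
  (tateSubIsoGroupCohomology A H 1).isZero_iff

lemma isZero_tateSub_two_iff (H : Subgroup G) :
    Limits.IsZero (tateSub A H 2) ↔ Limits.IsZero (groupCohomology (Rep.res H.subtype A) 2) :=
  (tateSubIsoGroupCohomology A H 2).isZero_iff

/-- `|H|` kills `Ĥ¹(H, A)`. -/
lemma card_nsmul_tateSub_one (H : Subgroup G) (x : tateSub A H 1) : Nat.card H • x = 0 := by
  have h1 := card_nsmul_H1_eq_zero (Rep.res H.subtype A)
    ((tateSubIsoGroupCohomology A H 1).hom x)
  rw [← map_nsmul] at h1
  have h2 := congrArg (tateSubIsoGroupCohomology A H 1).inv h1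
  simpa using h2

/-- Sylow detection in degree one. -/
lemma isZero_tateSub_one_of_pSubgroups (H : Subgroup G)
    (h : ∀ (p : ℕ) (P : Subgroup G), p.Prime → P ≤ H → IsPGroup p P →
      Limits.IsZero (tateSub A P 1)) : Limits.IsZero (tateSub A H 1) := by
  rw [isZero_tateSub_one_iff]
  apply isZero_H1_of_forall_prime
  intro p hp
  haveI : Fact p.Prime := ⟨hp⟩
  obtain ⟨S⟩ : Nonempty (Sylow p H) := inferInstance
  refine ⟨S.toSubgroup, S.not_dvd_index, fun f => ?_⟩
  -- the corresponding subgroup of `G`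
  set P : Subgroup G := S.toSubgroup.map H.subtype with hP
  have hPH : P ≤ H := Subgroup.map_subtype_le _
  have hPp : IsPGroup p P := S.isPGroup'.map _
  have hz := h p P hp hPH hPp
  rw [isZero_tateSub_one_iff, ModuleCat.isZero_iff_subsingleton] at hz
  have hcoc : ∀ g h : H, f (g * h) = A.ρ (g : G) (f h) + f g :=
    (mem_cocycles₁_iff (A := Rep.res H.subtype A) _).1 f.2
  -- restrict `f` to `P`
  let f'' : P → A.V := fun x => f ⟨x.1, hPH x.2⟩
  have hf'' : f'' ∈ cocycles₁ (Rep.res P.subtype A) := by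
    rw [mem_cocycles₁_iff]
    intro x y
    exact hcoc ⟨x.1, hPH x.2⟩ ⟨y.1, hPH y.2⟩
  have hcob : f'' ∈ coboundaries₁ (Rep.res P.subtype A) := by
    have := Subsingleton.elim (H1π (Rep.res P.subtype A) ⟨f'', hf''⟩) 0
    exact (H1π_eq_zero_iff _).1 this
  obtain ⟨b, hb⟩ := (mem_coboundaries₁_iff' _ _).1 hcob
  refine ⟨b, fun x => ?_⟩
  have hxP : ((x : H) : G) ∈ P := ⟨x.1, x.2, rfl⟩
  have := hb ⟨((x : H) : G), hxP⟩
  exact this.symm

omit [Fintype G] in
/-- Induction over the degree by dimension shifting. -/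
theorem shift_induction [Fintype G] {Φ : ℤ → Rep.{0} k G → Prop} (n₀ : ℤ) (h₀ : ∀ A, Φ n₀ A)
    (hup : ∀ n A, Φ n (up A) → Φ (n + 1) A) (hdown : ∀ n A, Φ (n + 1) (down A) → Φ n A) :
    ∀ n A, Φ n A := by
  intro n
  induction n using Int.inductionOn' (b := n₀) with
  | zero => exact h₀
  | succ m _ ih => intro A; exact hup m A (ih _)
  | pred m _ ih =>
    intro A
    have := hdown (m - 1) A
    rw [sub_add_cancel] at this
    exact this (ih _)

variable (hT1 : T1Statement k)
include hT1

/-- `|H|` kills `Ĥⁿ(H, A)` for all `n`. -/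
theorem card_nsmul_tateSub_eq_zero (H : Subgroup G) (n : ℤ) (A : Rep.{0} k G)
    (x : tateSub A H n) : Nat.card H • x = 0 := by
  revert x
  revert A n
  apply shift_induction (Φ := fun n A => ∀ x : tateSub A H n, Nat.card H • x = 0) 1
  · intro A x; exact card_nsmul_tateSub_one A H x
  · intro n A ih x
    have h1 := ih ((upIso A hT1 H n).inv x)
    rw [← map_nsmul] at h1
    have h2 := congrArg (upIso A hT1 H n).hom h1
    simpa using h2
  · intro n A ih x
    have h1 := ih ((downIso A hT1 H n).hom x)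
    rw [← map_nsmul] at h1
    have h2 := congrArg (downIso A hT1 H n).inv h1
    simpa using h2

/-- Sylow detection in all degrees. -/
theorem isZero_tateSub_of_pSubgroups (H : Subgroup G) (n : ℤ) (A : Rep.{0} k G)
    (h : ∀ (p : ℕ) (P : Subgroup G), p.Prime → P ≤ H → IsPGroup p P →
      Limits.IsZero (tateSub A P n)) : Limits.IsZero (tateSub A H n) := by
  revert h
  revert A n
  apply shift_induction (Φ := fun n A => (∀ (p : ℕ) (P : Subgroup G), p.Prime → P ≤ H →
    IsPGroup p P → Limits.IsZero (tateSub A P n)) → Limits.IsZero (tateSub A H n)) 1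
  · intro A h; exact isZero_tateSub_one_of_pSubgroups A H h
  · intro n A ih h
    rw [← isZero_tateSub_up A hT1]
    exact ih fun p P hp hPH hP => (isZero_tateSub_up A hT1 P n).2 (h p P hp hPH hP)
  · intro n A ih h
    rw [isZero_tateSub_down A hT1]
    exact ih fun p P hp hPH hP => (isZero_tateSub_down A hT1 P n).1 (h p P hp hPH hP)

end Tate

end Fermat.Agent.S55.TateCrit45
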